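import Fermat.Agent.Torsion.Eighteen.Defs

/-!
# A computable model of `R[√-2][θ]/(g)`

With `J = √-2`, `g = θ³ + (2+2J)θ² + (-1+2J)θ - 1` is a cubic dividing the sextic; the six coordinates
are with respect to `1, J, θ, Jθ, θ², Jθ²`.  Over `ℤ₂` the ring is local with maximal ideal
`(J)`, and an element of `ℚ₂[J][θ]/(g)` with integral square is integral.
-/

set_option autoImplicit false
set_option linter.style.maxHeartbeats false

noncomputable section

namespace FA.Torsion.Eighteen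

/-- The six coordinates with respect to `1, J, θ, Jθ, θ², Jθ²`. -/
@[ext]
structure Cub (R : Type) where
  c00 : R
  c01 : R
  c10 : R
  c11 : R
  c20 : R
  c21 : R
  deriving DecidableEq

namespace Cub

variable {R S : Type} [CommRing R] [CommRing S]

instance : Zero (Cub R) := ⟨⟨0, 0, 0, 0, 0, 0⟩⟩
instance : One (Cub R) := ⟨⟨1, 0, 0, 0, 0, 0⟩⟩
instance : NatCast (Cub R) := ⟨fun n => ⟨n, 0, 0, 0, 0, 0⟩⟩
instance : IntCast (Cub R) := ⟨fun n => ⟨n, 0, 0, 0, 0, 0⟩⟩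

instance : Add (Cub R) :=
  ⟨fun x y => ⟨x.c00 + y.c00, x.c01 + y.c01, x.c10 + y.c10, x.c11 + y.c11, x.c20 + y.c20,
    x.c21 + y.c21⟩⟩

instance : Neg (Cub R) := ⟨fun x => ⟨-x.c00, -x.c01, -x.c10, -x.c11, -x.c20, -x.c21⟩⟩

/-- The product, from `θ³ = 1 + (1-2J)θ + (-2-2J)θ²`. -/
def prod (x y : Cub R) : Cub R :=
    ⟨x.c00 * y.c00 - 2 * x.c01 * y.c01 + x.c10 * y.c20 - 2 * x.c11 * y.c21 + x.c20 * y.c10
        - 2 * x.c20 * y.c20 + 4 * x.c20 * y.c21 - 2 * x.c21 * y.c11 + 4 * x.c21 * y.c20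
        + 4 * x.c21 * y.c21,
      x.c00 * y.c01 + x.c01 * y.c00 + x.c10 * y.c21 + x.c11 * y.c20 + x.c20 * y.c11
        - 2 * x.c20 * y.c20 - 2 * x.c20 * y.c21 + x.c21 * y.c10 - 2 * x.c21 * y.c20
        + 4 * x.c21 * y.c21,
      x.c00 * y.c10 - 2 * x.c01 * y.c11 + x.c10 * y.c00 + x.c10 * y.c20 + 4 * x.c10 * y.c21
        - 2 * x.c11 * y.c01 + 4 * x.c11 * y.c20 - 2 * x.c11 * y.c21 + x.c20 * y.c10
        + 4 * x.c20 * y.c11 - 9 * x.c20 * y.c20 - 4 * x.c20 * y.c21 + 4 * x.c21 * y.c10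
        - 2 * x.c21 * y.c11 - 4 * x.c21 * y.c20 + 18 * x.c21 * y.c21,
      x.c00 * y.c11 + x.c01 * y.c10 + x.c10 * y.c01 - 2 * x.c10 * y.c20 + x.c10 * y.c21
        + x.c11 * y.c00 + x.c11 * y.c20 + 4 * x.c11 * y.c21 - 2 * x.c20 * y.c10 + x.c20 * y.c11
        + 2 * x.c20 * y.c20 - 9 * x.c20 * y.c21 + x.c21 * y.c10 + 4 * x.c21 * y.c11
        - 9 * x.c21 * y.c20 - 4 * x.c21 * y.c21,
      x.c00 * y.c20 - 2 * x.c01 * y.c21 + x.c10 * y.c10 - 2 * x.c10 * y.c20
        + 4 * x.c10 * y.c21 - 2 * x.c11 * y.c11 + 4 * x.c11 * y.c20 + 4 * x.c11 * y.c21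
        + x.c20 * y.c00 - 2 * x.c20 * y.c10 + 4 * x.c20 * y.c11 - 3 * x.c20 * y.c20
        - 12 * x.c20 * y.c21 - 2 * x.c21 * y.c01 + 4 * x.c21 * y.c10 + 4 * x.c21 * y.c11
        - 12 * x.c21 * y.c20 + 6 * x.c21 * y.c21,
      x.c00 * y.c21 + x.c01 * y.c20 + x.c10 * y.c11 - 2 * x.c10 * y.c20 - 2 * x.c10 * y.c21
        + x.c11 * y.c10 - 2 * x.c11 * y.c20 + 4 * x.c11 * y.c21 + x.c20 * y.c01
        - 2 * x.c20 * y.c10 - 2 * x.c20 * y.c11 + 6 * x.c20 * y.c20 - 3 * x.c20 * y.c21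
        + x.c21 * y.c00 - 2 * x.c21 * y.c10 + 4 * x.c21 * y.c11 - 3 * x.c21 * y.c20
        - 12 * x.c21 * y.c21⟩

instance : Mul (Cub R) := ⟨prod⟩

@[simp] theorem zero_c00 : (0 : Cub R).c00 = 0 := rfl
@[simp] theorem zero_c01 : (0 : Cub R).c01 = 0 := rfl
@[simp] theorem zero_c10 : (0 : Cub R).c10 = 0 := rfl
@[simp] theorem zero_c11 : (0 : Cub R).c11 = 0 := rfl
@[simp] theorem zero_c20 : (0 : Cub R).c20 = 0 := rfl
@[simp] theorem zero_c21 : (0 : Cub R).c21 = 0 := rfl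
@[simp] theorem one_c00 : (1 : Cub R).c00 = 1 := rfl
@[simp] theorem one_c01 : (1 : Cub R).c01 = 0 := rfl
@[simp] theorem one_c10 : (1 : Cub R).c10 = 0 := rfl
@[simp] theorem one_c11 : (1 : Cub R).c11 = 0 := rfl
@[simp] theorem one_c20 : (1 : Cub R).c20 = 0 := rfl
@[simp] theorem one_c21 : (1 : Cub R).c21 = 0 := rfl
theorem natCast_def (n : ℕ) : (n : Cub R) = ⟨n, 0, 0, 0, 0, 0⟩ := rfl
theorem intCast_def (n : ℤ) : (n : Cub R) = ⟨n, 0, 0, 0, 0, 0⟩ := rfl
theorem add_def (x y : Cub R) : x + y = ⟨x.c00 + y.c00, x.c01 + y.c01, x.c10 + y.c10,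
    x.c11 + y.c11, x.c20 + y.c20, x.c21 + y.c21⟩ := rfl
theorem neg_def (x : Cub R) : -x = ⟨-x.c00, -x.c01, -x.c10, -x.c11, -x.c20, -x.c21⟩ := rfl
theorem mul_def (x y : Cub R) : x * y = prod x y := rfl

set_option maxHeartbeats 2000000 in
instance instCommRing : CommRing (Cub R) where
  zero := 0
  one := 1
  add := (· + ·)
  neg := Neg.neg
  mul := (· * ·)
  natCast := Nat.cast
  intCast := Int.cast
  nsmul := nsmulRec
  zsmul := zsmulRec
  natCast_zero := by ext <;> simp [natCast_def]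
  natCast_succ n := by ext <;> simp [natCast_def, add_def]
  intCast_ofNat n := by ext <;> simp [intCast_def, natCast_def]
  intCast_negSucc n := by ext <;> simp [intCast_def, natCast_def, neg_def]
  add_assoc x y z := by ext <;> simp [add_def] <;> ring
  zero_add x := by ext <;> simp [add_def]
  add_zero x := by ext <;> simp [add_def]
  add_comm x y := by ext <;> simp [add_def] <;> ring
  neg_add_cancel x := by ext <;> simp [add_def, neg_def]
  left_distrib x y z := by ext <;> simp only [add_def, mul_def, prod] <;> ring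
  right_distrib x y z := by ext <;> simp only [add_def, mul_def, prod] <;> ring
  zero_mul x := by ext <;> simp [mul_def, prod]
  mul_zero x := by ext <;> simp [mul_def, prod]
  mul_assoc x y z := by ext <;> simp only [mul_def, prod] <;> ring
  one_mul x := by ext <;> simp [mul_def, prod]
  mul_one x := by ext <;> simp [mul_def, prod]
  mul_comm x y := by ext <;> simp only [mul_def, prod] <;> ring

/-- `√-2`. -/
def J : Cub R := ⟨0, 1, 0, 0, 0, 0⟩

/-- `θ`. -/
def T : Cub R := ⟨0, 0, 1, 0, 0, 0⟩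

/-- The scalars. -/
def C : R →+* Cub R where
  toFun r := ⟨r, 0, 0, 0, 0, 0⟩
  map_one' := rfl
  map_mul' x y := by ext <;> simp [mul_def, prod]
  map_zero' := rfl
  map_add' x y := by ext <;> simp [add_def]

/-- Functoriality. -/
def map (φ : R →+* S) : Cub R →+* Cub S where
  toFun x := ⟨φ x.c00, φ x.c01, φ x.c10, φ x.c11, φ x.c20, φ x.c21⟩
  map_one' := by ext <;> simp
  map_mul' x y := by ext <;> simp [mul_def, prod, map_ofNat]
  map_zero' := by ext <;> simp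
  map_add' x y := by ext <;> simp [add_def]

theorem C_apply (r : R) : C r = (⟨r, 0, 0, 0, 0, 0⟩ : Cub R) := rfl

theorem map_apply (φ : R →+* S) (x : Cub R) :
    map φ x = ⟨φ x.c00, φ x.c01, φ x.c10, φ x.c11, φ x.c20, φ x.c21⟩ := rfl

theorem map_injective {φ : R →+* S} (h : Function.Injective φ) : Function.Injective (map φ) := by
  intro x y e
  simp only [map_apply, Cub.mk.injEq] at e
  obtain ⟨e0, e1, e2, e3, e4, e5⟩ := e
  ext <;> apply h <;> assumption

@[simp] theorem map_J (φ : R →+* S) : map φ J = J := by ext <;> simp [map_apply, J]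
@[simp] theorem map_T (φ : R →+* S) : map φ T = T := by ext <;> simp [map_apply, T]
@[simp] theorem map_C (φ : R →+* S) (r : R) : map φ (C r) = C (φ r) := by
  ext <;> simp [map_apply, C_apply]

theorem J_sq : (J : Cub R) ^ 2 = -2 := by
  have h2 : (2 : Cub R) = C 2 := (map_ofNat C 2).symm
  rw [h2]
  ext <;> simp [pow_two, mul_def, prod, neg_def, C_apply, J]

theorem gA_add_J_mul_gB : gA (T : Cub R) + J * gB T = 0 := by
  have h2 : (2 : Cub R) = C 2 := (map_ofNat C 2).symm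
  ext <;> simp [gA, gB, h2, C_apply, pow_succ, sub_eq_add_neg, add_def, neg_def, mul_def, prod, J, T]

theorem f18_T : f18 (T : Cub R) = 0 := by
  linear_combination (gA (T : Cub R) - J * gB T) * gA_add_J_mul_gB (R := R) +
    f18_eq_gA_gB (T : Cub R) + gB (T : Cub R) ^ 2 * J_sq (R := R)

/-- `k₂θ² + k₁θ + k₀` in coordinates. -/
theorem quad_eq (a b c : R) : C a * T ^ 2 + C b * T + C c = (⟨c, 0, b, 0, a, 0⟩ : Cub R) := by
  ext <;> simp [C_apply, T, pow_two, add_def, mul_def, prod]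

/-- The first fundamental unit. -/
def e0 : Cub R := ⟨1, 0, 0, -1, 0, 0⟩

/-- The second fundamental unit. -/
def e1 : Cub R := ⟨1, 1, 1, 0, 0, 0⟩

theorem e0_inv : (e0 : Cub R) * ⟨1, 2, 4, 3, 2, 0⟩ = 1 := by
  ext <;> simp [e0, mul_def, prod] <;> ring

theorem e1_inv : (e1 : Cub R) * ⟨0, 0, 1, 1, 1, 0⟩ = 1 := by
  ext <;> simp [e1, mul_def, prod] <;> ring

end Cub

end FA.Torsion.Eighteen

end
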