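import Fermat.Agent.Torsion.EighteenDefs

/-!
# The sextic field cut out by the sextic of `X₁(18)`

`f18 = gA² + 2 gB²`, so the sextic field contains a square root of `-2`.
-/

set_option autoImplicit false

noncomputable section

open Polynomial

namespace FA.Torsion.Eighteen

/-- Rational part of the cubic over `ℤ[√-2]` dividing `f18`. -/
def gA {R : Type*} [CommRing R] (x : R) : R := x ^ 3 + 2 * x ^ 2 - x - 1

/-- Irrational part of the cubic over `ℤ[√-2]` dividing `f18`. -/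
def gB {R : Type*} [CommRing R] (x : R) : R := 2 * x ^ 2 + 2 * x

/-- The cubic with `f18 = h18 ^ 2 + 4 * (x ^ 5 + 2 * x ^ 4 + 2 * x ^ 3 + x ^ 2)`. -/
def h18 {R : Type*} [CommRing R] (x : R) : R := x ^ 3 + x + 1

theorem f18_eq_gA_gB {R : Type*} [CommRing R] (x : R) :
    f18 x = gA x ^ 2 + 2 * gB x ^ 2 := by
  simp only [f18, gA, gB]; ring

theorem f18_eq_h18 {R : Type*} [CommRing R] (x : R) :
    f18 x = h18 x ^ 2 + 4 * (x ^ 5 + 2 * x ^ 4 + 2 * x ^ 3 + x ^ 2) := by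
  simp only [f18, h18]; ring

/-- The sextic as a polynomial. -/
def fPoly : ℚ[X] := f18 X

theorem fPoly_monic : fPoly.Monic := by
  unfold fPoly f18; monicity!

theorem natDegree_fPoly : fPoly.natDegree = 6 := by
  unfold fPoly f18; compute_degree!

theorem aeval_fPoly {A : Type*} [CommRing A] [Algebra ℚ A] (a : A) : aeval a fPoly = f18 a := by
  simp [fPoly, f18, map_ofNat]

set_option maxRecDepth 20000 in
private theorem no_factor_dec :
    (∀ a : ZMod 5, a * (2 - a * (5 - a * (10 - a * (10 - a * (4 - a))))) ≠ 1) ∧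
    (∀ a₀ a₁ : ZMod 5,
      let b₃ := 4 - a₁
      let b₂ := 10 - a₁ * b₃ - a₀
      let b₁ := 10 - a₁ * b₂ - a₀ * b₃
      let b₀ := 5 - a₁ * b₁ - a₀ * b₂
      ¬ (a₀ * b₀ = 1 ∧ a₁ * b₀ + a₀ * b₁ = 2)) ∧
    (∀ a₀ a₁ a₂ : ZMod 5,
      let b₂ := 4 - a₂
      let b₁ := 10 - a₂ * b₂ - a₁
      let b₀ := 10 - a₂ * b₁ - a₁ * b₂ - a₀
      ¬ (a₀ * b₀ = 1 ∧ a₁ * b₀ + a₀ * b₁ = 2 ∧ a₂ * b₀ + a₁ * b₁ + a₀ * b₂ = 5)) := by
  refine ⟨?_, ?_, ?_⟩ <;> decide

private theorem no_factor :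
    (∀ a : ZMod 5, ∀ b₀ b₁ b₂ b₃ b₄ : ZMod 5,
      ¬ (a * b₀ = 1 ∧ b₀ + a * b₁ = 2 ∧ b₁ + a * b₂ = 5 ∧ b₂ + a * b₃ = 10 ∧ b₃ + a * b₄ = 10 ∧
        b₄ + a = 4)) ∧
    (∀ a₀ a₁ : ZMod 5, ∀ b₀ b₁ b₂ b₃ : ZMod 5,
      ¬ (a₀ * b₀ = 1 ∧ a₁ * b₀ + a₀ * b₁ = 2 ∧ b₀ + a₁ * b₁ + a₀ * b₂ = 5 ∧
        b₁ + a₁ * b₂ + a₀ * b₃ = 10 ∧ b₂ + a₁ * b₃ + a₀ = 10 ∧ b₃ + a₁ = 4)) ∧
    (∀ a₀ a₁ a₂ : ZMod 5, ∀ b₀ b₁ b₂ : ZMod 5,
      ¬ (a₀ * b₀ = 1 ∧ a₁ * b₀ + a₀ * b₁ = 2 ∧ a₂ * b₀ + a₁ * b₁ + a₀ * b₂ = 5 ∧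
        b₀ + a₂ * b₁ + a₁ * b₂ + a₀ = 10 ∧ b₁ + a₂ * b₂ + a₁ = 10 ∧ b₂ + a₂ = 4)) := by
  obtain ⟨d1, d2, d3⟩ := no_factor_dec
  refine ⟨?_, ?_, ?_⟩
  · rintro a b₀ b₁ b₂ b₃ b₄ ⟨e0, e1, e2, e3, e4, e5⟩
    obtain rfl : b₄ = 4 - a := by linear_combination e5
    obtain rfl : b₃ = 10 - a * (4 - a) := by linear_combination e4
    obtain rfl : b₂ = 10 - a * (10 - a * (4 - a)) := by linear_combination e3
    obtain rfl : b₁ = 5 - a * (10 - a * (10 - a * (4 - a))) := by linear_combination e2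
    exact d1 a (by linear_combination e0 - a * e1)
  · rintro a₀ a₁ b₀ b₁ b₂ b₃ ⟨e0, e1, e2, e3, e4, e5⟩
    obtain rfl : b₃ = 4 - a₁ := by linear_combination e5
    obtain rfl : b₂ = 10 - a₁ * (4 - a₁) - a₀ := by linear_combination e4
    obtain rfl : b₁ = 10 - a₁ * (10 - a₁ * (4 - a₁) - a₀) - a₀ * (4 - a₁) := by
      linear_combination e3
    obtain rfl : b₀ = 5 - a₁ * (10 - a₁ * (10 - a₁ * (4 - a₁) - a₀) - a₀ * (4 - a₁))
        - a₀ * (10 - a₁ * (4 - a₁) - a₀) := by linear_combination e2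
    exact d2 a₀ a₁ ⟨e0, e1⟩
  · rintro a₀ a₁ a₂ b₀ b₁ b₂ ⟨e0, e1, e2, e3, e4, e5⟩
    obtain rfl : b₂ = 4 - a₂ := by linear_combination e5
    obtain rfl : b₁ = 10 - a₂ * (4 - a₂) - a₁ := by linear_combination e4
    obtain rfl : b₀ = 10 - a₂ * (10 - a₂ * (4 - a₂) - a₁) - a₁ * (4 - a₂) - a₀ := by
      linear_combination e3
    exact d3 a₀ a₁ a₂ ⟨e0, e1, e2⟩

theorem fPoly_irreducible : Irreducible fPoly := by
  have hm : (f18 (X : ℤ[X])).Monic := by unfold f18; monicity!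
  have : Fact (Nat.Prime 5) := ⟨Nat.prime_five⟩
  have h3 : Irreducible ((f18 (X : ℤ[X])).map (Int.castRingHom (ZMod 5))) := by
    have hd : ((f18 (X : ℤ[X])).map (Int.castRingHom (ZMod 5))).natDegree = 6 := by
      rw [hm.natDegree_map]; unfold f18; compute_degree!
    have hne1 : (f18 (X : ℤ[X])).map (Int.castRingHom (ZMod 5)) ≠ 1 := by
      intro h; rw [h, natDegree_one] at hd; omega
    rw [(hm.map _).irreducible_iff_lt_natDegree_lt hne1]
    intro q hq hqd hdvd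
    obtain ⟨b, hb⟩ := hdvd
    rw [hd, Finset.mem_Ioc] at hqd
    have hbm : b.Monic := hq.of_mul_monic_left (hb ▸ hm.map _)
    have hbd : b.natDegree = 6 - q.natDegree := by
      have := congrArg natDegree hb
      rw [hd, hq.natDegree_mul hbm] at this
      omega
    have hc : ∀ n, ((f18 (X : ℤ[X])).map (Int.castRingHom (ZMod 5))).coeff n = (q * b).coeff n :=
      fun n => by rw [hb]
    obtain ⟨h1, h2, h3'⟩ := no_factor
    have qe := hq.as_sum
    have be := hbm.as_sum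
    have hdd : q.natDegree = 1 ∨ q.natDegree = 2 ∨ q.natDegree = 3 := by omega
    rcases hdd with e | e | e
    · rw [e] at qe; rw [hbd, e] at be
      refine h1 (q.coeff 0) (b.coeff 0) (b.coeff 1) (b.coeff 2) (b.coeff 3) (b.coeff 4) ?_
      rw [qe, be] at hc
      have c0 := hc 0; have c1 := hc 1; have c2 := hc 2; have c3 := hc 3; have c4 := hc 4
      have c5 := hc 5
      simp [f18, Finset.sum_range_succ, coeff_mul, Finset.Nat.sum_antidiagonal_eq_sum_range_succ_mk,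
        coeff_X, coeff_one] at c0 c1 c2 c3 c4 c5
      refine ⟨?_, ?_, ?_, ?_, ?_, ?_⟩
      · linear_combination -c0
      · linear_combination -c1
      · linear_combination -c2
      · linear_combination -c3
      · linear_combination -c4
      · linear_combination -c5
    · rw [e] at qe; rw [hbd, e] at be
      refine h2 (q.coeff 0) (q.coeff 1) (b.coeff 0) (b.coeff 1) (b.coeff 2) (b.coeff 3) ?_
      rw [qe, be] at hc
      have c0 := hc 0; have c1 := hc 1; have c2 := hc 2; have c3 := hc 3; have c4 := hc 4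
      have c5 := hc 5
      simp [f18, Finset.sum_range_succ, coeff_mul, Finset.Nat.sum_antidiagonal_eq_sum_range_succ_mk,
        coeff_X, coeff_one] at c0 c1 c2 c3 c4 c5
      refine ⟨?_, ?_, ?_, ?_, ?_, ?_⟩
      · linear_combination -c0
      · linear_combination -c1
      · linear_combination -c2
      · linear_combination -c3
      · linear_combination -c4
      · linear_combination -c5
    · rw [e] at qe; rw [hbd, e] at be
      refine h3' (q.coeff 0) (q.coeff 1) (q.coeff 2) (b.coeff 0) (b.coeff 1) (b.coeff 2) ?_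
      rw [qe, be] at hc
      have c0 := hc 0; have c1 := hc 1; have c2 := hc 2; have c3 := hc 3; have c4 := hc 4
      have c5 := hc 5
      simp [f18, Finset.sum_range_succ, coeff_mul, Finset.Nat.sum_antidiagonal_eq_sum_range_succ_mk,
        coeff_X, coeff_one] at c0 c1 c2 c3 c4 c5
      refine ⟨?_, ?_, ?_, ?_, ?_, ?_⟩
      · linear_combination -c0
      · linear_combination -c1
      · linear_combination -c2
      · linear_combination -c3
      · linear_combination -c4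
      · linear_combination -c5
  have hirr := hm.irreducible_of_irreducible_map (Int.castRingHom (ZMod 5)) _ h3
  have := hm.irreducible_iff_irreducible_map_fraction_map (K := ℚ) |>.mp hirr
  have hmap : (f18 (X : ℤ[X])).map (algebraMap ℤ ℚ) = fPoly := by
    rw [fPoly, ← coe_mapRingHom, map_f18, coe_mapRingHom, map_X]
  rwa [hmap] at this

instance : Fact (Irreducible fPoly) := ⟨fPoly_irreducible⟩

/-- The sextic field `ℚ[x]/(f18)`. -/
abbrev L : Type := AdjoinRoot fPoly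

/-- The root of the sextic in `L`. -/
def θL : L := AdjoinRoot.root fPoly

theorem f18_θL : f18 θL = 0 := by
  rw [← aeval_fPoly, θL, aeval_def,
    Subsingleton.elim (algebraMap ℚ L) (AdjoinRoot.of fPoly), AdjoinRoot.eval₂_root]

/-- The square root of `-2` in `L`, namely `-gA θL / gB θL`. -/
def sL : L :=
  -(3 + 8 * θL + 13 * θL ^ 2 + 17 * θL ^ 3 + 7 * θL ^ 4 + 2 * θL ^ 5) / 2

/-- First fundamental unit. -/
def e0L : L := 1 - sL * θL

/-- Second fundamental unit. -/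
def e1L : L := 1 + sL + θL

theorem sL_sq : sL ^ 2 = -2 := by
  have h := f18_θL
  simp only [sL, f18] at h ⊢
  grind

theorem gA_add_sL_mul_gB : gA θL + sL * gB θL = 0 := by
  have h := f18_θL
  simp only [sL, f18, gA, gB] at h ⊢
  grind

instance : NumberField L where
  to_charZero := charZero_of_injective_algebraMap (algebraMap ℚ L).injective
  to_finiteDimensional := fPoly_monic.finite_adjoinRoot

theorem finrank_L : Module.finrank ℚ L = 6 := by
  rw [PowerBasis.finrank (AdjoinRoot.powerBasis fPoly_monic.ne_zero),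
    AdjoinRoot.powerBasis_dim, natDegree_fPoly]

end FA.Torsion.Eighteen

end
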