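import Fermat.Agent.Torsion.Eighteen.Step

/-!
# The descent step on `X₁(18)`: congruences

The square root `a` of `U(θ)` is `θ + 2β` with `β` real modulo `2`, so `l ≡ x k (mod 2)`; then
`l² - U k² = E² f18` modulo small powers of `2` forces `k ≡ x²` or `k ≡ x² + 1` modulo `2`.
-/

set_option autoImplicit false
set_option linter.style.maxHeartbeats false
set_option synthInstance.maxSize 2048

noncomputable section

namespace FA.Torsion.Eighteen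

theorem two_mul_red4 (x : ℤ_[2]) :
    (red2 x = 1 → 2 * red4 x = 2) ∧ (red2 x = 0 → 2 * red4 x = 0) := by
  obtain ⟨b, w, rfl⟩ := exists_bit x
  rw [map_add, map_mul, map_natCast, red2_two, zero_mul, add_zero, map_add, map_mul, map_natCast,
    map_ofNat]
  have key : ∀ b : Fin 2, ∀ w : ZMod 4,
      ((b.val : ZMod 2) = 1 → 2 * ((b.val : ZMod 4) + 2 * w) = 2) ∧
      ((b.val : ZMod 2) = 0 → 2 * ((b.val : ZMod 4) + 2 * w) = 0) := by decide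
  exact key b _

/-- A square root of a real quadratic `≡ x²` or `≡ x² + 1` modulo `2`. -/
theorem sqrt_red {a : Cub ℤ_[2]} {k2 k1 k0 : ℤ_[2]} (ha : a ^ 2 = ⟨k0, 0, k1, 0, k2, 0⟩)
    (h2 : red2 k2 = 1) (h1 : red2 k1 = 0) :
    (red2 k0 = 1 → red4 k1 = 2 ∧ red4 k0 = red4 k2) ∧
    (red2 k0 = 0 → red4 k1 = 0 ∧ red4 k0 = 0 ∧ (red4 k2 = 1 → ∃ β : Cub ℤ_[2],
      a = Cub.T + 2 * β ∧ red2 β.c01 = 0 ∧ red2 β.c11 = 0 ∧ red2 β.c21 = 0)) := by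
  obtain ⟨b, hb2, hb4⟩ := Cub.map_red4_sq a
  have e : (Cub.ofBits b : Cub (ZMod 4)) ^ 2 = ⟨red4 k0, 0, red4 k1, 0, red4 k2, 0⟩ := by
    rw [← hb4, ← map_pow, ha]; simp [Cub.map_apply]
  have key := Cub.quad_sq_four b
  simp only [e] at key
  obtain ⟨key1, key0⟩ := key trivial trivial trivial ((two_mul_red4 k2).1 h2)
    ((two_mul_red4 k1).2 h1)
  refine ⟨fun h => key1 ((two_mul_red4 k0).1 h), fun h => ?_⟩
  obtain ⟨e1, e0, hT⟩ := key0 ((two_mul_red4 k0).2 h)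
  refine ⟨e1, e0, fun h4 => ?_⟩
  obtain ⟨b', β, rfl⟩ := Cub.exists_ofBits a
  have hb' : (Cub.ofBits b' : Cub (ZMod 2)) = Cub.ofBits b := by
    rw [← hb2, map_add, map_mul, Cub.map_ofBits, map_ofNat,
      (by decide : (2 : Cub (ZMod 2)) = 0), zero_mul, add_zero]
  have hinj : ∀ c, (Cub.ofBits c : Cub (ZMod 2)) = Cub.ofBits (0, 0, 1, 0, 0, 0) →
      c = (0, 0, 1, 0, 0, 0) := by decide
  obtain rfl := hinj b' (by rw [hb', hT h4])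
  have hT' : (Cub.ofBits (0, 0, 1, 0, 0, 0) : Cub ℤ_[2]) = Cub.T := by
    ext <;> simp [Cub.ofBits, Cub.T]
  rw [hT'] at ha ⊢
  refine ⟨β, rfl, ?_⟩
  obtain ⟨p, hp⟩ := red4_eq_zero.1 e0
  obtain ⟨q, hq⟩ := red4_eq_zero.1 e1
  obtain ⟨r, hr⟩ := red4_eq_zero.1 (show red4 (k2 - 1) = 0 by rw [map_sub, h4, map_one, sub_self])
  have hC4 : Cub.C (4 : ℤ_[2]) = 4 := map_ofNat _ _
  have h' : Cub.C (4 : ℤ_[2]) * (Cub.T * β + β ^ 2) = Cub.C 4 * ⟨p, 0, q, 0, r, 0⟩ := by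
    have hU : (⟨k0, 0, k1, 0, k2, 0⟩ : Cub ℤ_[2]) = Cub.T ^ 2 + Cub.C 4 * ⟨p, 0, q, 0, r, 0⟩ := by
      ext <;> simp [pow_two, Cub.T, Cub.C_apply, Cub.mul_def, Cub.prod, Cub.add_def, hp, hq,
        ← hr]
    rw [hU] at ha
    linear_combination ha + (Cub.T * β + β ^ 2) * hC4
  have h'' : Cub.T * β + β ^ 2 = ⟨p, 0, q, 0, r, 0⟩ := by
    generalize Cub.T * β + β ^ 2 = x at h' ⊢
    simp [Cub.C_apply, Cub.mul_def, Cub.prod] at h'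
    obtain ⟨a0, a1, a2, a3, a4, a5⟩ := h'
    ext <;> assumption
  obtain ⟨c, w, rfl⟩ := Cub.exists_ofBits β
  have hc : Cub.map red2 (Cub.ofBits c + 2 * w) = (Cub.ofBits c : Cub (ZMod 2)) := by
    rw [map_add, map_mul, Cub.map_ofBits, map_ofNat, (by decide : (2 : Cub (ZMod 2)) = 0),
      zero_mul, add_zero]
  have e2 : Cub.T * (Cub.ofBits c : Cub (ZMod 2)) + Cub.ofBits c ^ 2 =
      ⟨red2 p, 0, red2 q, 0, red2 r, 0⟩ := by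
    rw [← hc, ← Cub.map_T red2, ← map_mul, ← map_pow, ← map_add, h'']
    simp [Cub.map_apply]
  have := Cub.real_of_T_mul_add_sq c
  simp only [e2] at this
  obtain ⟨r1, r2, r3⟩ := this trivial trivial trivial
  rw [← hc] at r1 r2 r3
  exact ⟨r1, r2, r3⟩

/-- `(θ + 2β) k(θ) = l(θ)` with `β` real modulo `2` gives `l ≡ x k (mod 2)`. -/
theorem cubic_congr {β : Cub ℤ_[2]} {k2 k1 k0 l3 l2 l1 l0 : ℤ_[2]}
    (hβ : red2 β.c01 = 0 ∧ red2 β.c11 = 0 ∧ red2 β.c21 = 0)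
    (h : (Cub.T + 2 * β) * ⟨k0, 0, k1, 0, k2, 0⟩ =
      Cub.C l3 * Cub.T ^ 3 + Cub.C l2 * Cub.T ^ 2 + Cub.C l1 * Cub.T + Cub.C l0) :
    2 ∣ l0 ∧ 2 ∣ l1 - k0 ∧ 2 ∣ l2 - k1 ∧ 2 ∣ l3 - k2 := by
  obtain ⟨b1, b2, b3⟩ := hβ
  obtain ⟨P, hP⟩ : ∃ P, β * ⟨k0, 0, k1, 0, k2, 0⟩ = P := ⟨_, rfl⟩
  have hP11 : red2 P.c11 = 0 := by
    rw [← hP]
    simp [Cub.mul_def, Cub.prod, map_ofNat, b1, b2, b3, show (2 : ZMod 2) = 0 from rfl]
  obtain ⟨s, hs⟩ := red2_eq_zero.1 hP11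
  rw [add_mul, mul_assoc, hP] at h
  have h00 := congrArg (fun z => z.c00) h
  have h10 := congrArg (fun z => z.c10) h
  have h11 := congrArg (fun z => z.c11) h
  have h20 := congrArg (fun z => z.c20) h
  simp [two_mul, pow_succ, Cub.T, Cub.C_apply, Cub.mul_def, Cub.prod, Cub.add_def]
    at h00 h10 h11 h20
  have e3 : l3 = k2 - 2 * s :=
    mul_left_cancel₀ (two_ne_zero (α := ℤ_[2])) (by linear_combination h11 - 2 * hs)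
  subst e3
  exact ⟨⟨P.c00 + s, by linear_combination -h00⟩, ⟨P.c10 + s, by linear_combination -h10⟩,
    ⟨P.c20 - 2 * s, by linear_combination -h20⟩, ⟨-s, by ring⟩⟩

set_option maxRecDepth 100000 in
set_option maxHeartbeats 4000000 in
/-- Solutions of `μ² + μ x k + (γx² + σx + π) k² + E h² = 0` over `ℤ/2`. -/
theorem half_dec : ∀ g s p E k0 k1 k2 m0 m1 m2 m3 : ZMod 2,
    m0 + p * k0 + E = 0 → k0 * m0 + s * k0 = 0 →
    m1 + k0 * m1 + k1 * m0 + p * k1 + g * k0 + E = 0 →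
    k0 * m2 + k1 * m1 + k2 * m0 + s * k1 = 0 →
    m2 + k0 * m3 + k1 * m2 + k2 * m1 + p * k2 + g * k1 = 0 →
    k1 * m3 + k2 * m2 + s * k2 = 0 → m3 + k2 * m3 + g * k2 + E = 0 →
    ¬ (k0 = 0 ∧ k1 = 0 ∧ k2 = 0) →
    (g = 0 ∧ p = s ∧ E = 0) ∨
      (g = 1 ∧ p + s = 1 ∧ E = 1 ∧ k2 = 1 ∧ k1 = 0 ∧ k0 = 1 ∧ m0 = s) := by decide

/-- The two branches modulo `4`. -/
theorem half_step {g s p E k0 k1 k2 m0 m1 m2 m3 : ℤ_[2]}
    (hk : ¬ (2 ∣ k0 ∧ 2 ∣ k1 ∧ 2 ∣ k2))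
    (h : ∀ x : ℤ_[2], (m3 * x ^ 3 + m2 * x ^ 2 + m1 * x + m0) ^ 2
      + (m3 * x ^ 3 + m2 * x ^ 2 + m1 * x + m0) * (x * (k2 * x ^ 2 + k1 * x + k0))
      - (g * x ^ 2 + s * x + p) * (k2 * x ^ 2 + k1 * x + k0) ^ 2 = E * f18 x) :
    (red2 g = 0 ∧ red2 p = red2 s ∧ red2 E = 0) ∨
      (red2 g = 1 ∧ red2 p + red2 s = 1 ∧ red2 E = 1 ∧ red2 k2 = 1 ∧ red2 k1 = 0 ∧
        red2 k0 = 1 ∧ red2 m0 = red2 s) := by
  obtain ⟨c0, c1, c2, c3, c4, c5, c6⟩ := coeffs_eq_zero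
    (m0 ^ 2 - p * k0 ^ 2 - E)
    (2 * m0 * m1 + k0 * m0 - s * k0 ^ 2 - p * (2 * k0 * k1) - E * 2)
    (m1 ^ 2 + 2 * m0 * m2 + k0 * m1 + k1 * m0 - p * (k1 ^ 2 + 2 * k0 * k2) - s * (2 * k0 * k1)
      - g * k0 ^ 2 - E * 5)
    (2 * m0 * m3 + 2 * m1 * m2 + k0 * m2 + k1 * m1 + k2 * m0 - p * (2 * k1 * k2)
      - s * (k1 ^ 2 + 2 * k0 * k2) - g * (2 * k0 * k1) - E * 10)
    (m2 ^ 2 + 2 * m1 * m3 + k0 * m3 + k1 * m2 + k2 * m1 - p * k2 ^ 2 - s * (2 * k1 * k2)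
      - g * (k1 ^ 2 + 2 * k0 * k2) - E * 10)
    (2 * m2 * m3 + k1 * m3 + k2 * m2 - s * k2 ^ 2 - g * (2 * k1 * k2) - E * 4)
    (m3 ^ 2 + k2 * m3 - g * k2 ^ 2 - E)
    (fun x => by have := h x; simp only [f18] at this; linear_combination this)
  have h2 : (2 : ZMod 2) = 0 := rfl
  have hsq : ∀ x : ZMod 2, x ^ 2 = x := by decide
  replace c0 := congrArg red2 c0; replace c1 := congrArg red2 c1; replace c2 := congrArg red2 c2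
  replace c3 := congrArg red2 c3; replace c4 := congrArg red2 c4; replace c5 := congrArg red2 c5
  replace c6 := congrArg red2 c6
  simp [map_ofNat, h2, hsq, CharTwo.sub_eq_add, show (4 : ZMod 2) = 0 from rfl,
    show (5 : ZMod 2) = 1 from rfl, show (10 : ZMod 2) = 0 from rfl, mul_one] at c0 c1 c2 c3 c4 c5 c6
  exact half_dec _ _ _ _ _ _ _ _ _ _ _ c0 c1 c2 c3 c4 c5 c6
    (by simpa only [red2_eq_zero] using hk)

/-- Coefficients modulo `2` of `a n² + b n x k + c k² + d h²`. -/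
theorem comb_coeffs {A B C d r m k0 k1 k2 n0 n1 n2 n3 : ℤ_[2]} (hr : red2 r = 1) (hm : red2 m = 0)
    (h : ∀ x : ℤ_[2], A * (n3 * x ^ 3 + n2 * x ^ 2 + n1 * x + n0) ^ 2
      + B * (n3 * x ^ 3 + n2 * x ^ 2 + n1 * x + n0) * (r * (x - m) * (k2 * x ^ 2 + k1 * x + k0))
      + C * (k2 * x ^ 2 + k1 * x + k0) ^ 2 + d * f18 x = 0) :
    red2 A * red2 n0 + red2 C * red2 k0 + red2 d = 0 ∧
    red2 B * (red2 n0 * red2 k0) = 0 ∧
    red2 A * red2 n1 + red2 B * (red2 n0 * red2 k1 + red2 n1 * red2 k0) + red2 C * red2 k1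
      + red2 d = 0 ∧
    red2 B * (red2 n0 * red2 k2 + red2 n1 * red2 k1 + red2 n2 * red2 k0) = 0 ∧
    red2 A * red2 n2 + red2 B * (red2 n1 * red2 k2 + red2 n2 * red2 k1 + red2 n3 * red2 k0)
      + red2 C * red2 k2 = 0 ∧
    red2 B * (red2 n2 * red2 k2 + red2 n3 * red2 k1) = 0 ∧
    red2 A * red2 n3 + red2 B * (red2 n3 * red2 k2) + red2 d = 0 := by
  obtain ⟨c0, c1, c2, c3, c4, c5, c6⟩ := coeffs_eq_zero
    (A * n0 ^ 2 + B * r * (n0 * -m * k0) + C * k0 ^ 2 + d)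
    (A * (2 * n0 * n1) + B * r * (n0 * k0 - m * (n0 * k1 + n1 * k0)) + C * (2 * k0 * k1) + d * 2)
    (A * (n1 ^ 2 + 2 * n0 * n2)
      + B * r * (n0 * k1 + n1 * k0 - m * (n0 * k2 + n1 * k1 + n2 * k0))
      + C * (k1 ^ 2 + 2 * k0 * k2) + d * 5)
    (A * (2 * n0 * n3 + 2 * n1 * n2)
      + B * r * (n0 * k2 + n1 * k1 + n2 * k0 - m * (n1 * k2 + n2 * k1 + n3 * k0))
      + C * (2 * k1 * k2) + d * 10)
    (A * (n2 ^ 2 + 2 * n1 * n3)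
      + B * r * (n1 * k2 + n2 * k1 + n3 * k0 - m * (n2 * k2 + n3 * k1)) + C * k2 ^ 2 + d * 10)
    (A * (2 * n2 * n3) + B * r * (n2 * k2 + n3 * k1 - m * (n3 * k2)) + d * 4)
    (A * n3 ^ 2 + B * r * (n3 * k2) + d)
    (fun x => by have := h x; simp only [f18] at this; linear_combination this)
  have h2 : (2 : ZMod 2) = 0 := rfl
  have hsq : ∀ x : ZMod 2, x ^ 2 = x := by decide
  replace c0 := congrArg red2 c0; replace c1 := congrArg red2 c1; replace c2 := congrArg red2 c2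
  replace c3 := congrArg red2 c3; replace c4 := congrArg red2 c4; replace c5 := congrArg red2 c5
  replace c6 := congrArg red2 c6
  simp [map_ofNat, h2, hsq, hr, hm, show (4 : ZMod 2) = 0 from rfl,
    show (5 : ZMod 2) = 1 from rfl, show (10 : ZMod 2) = 0 from rfl, mul_one] at c0 c1 c2 c3 c4 c5 c6
  exact ⟨c0, by simpa using c1, c2, by simpa using c3, c4, by simpa using c5, c6⟩

set_option maxRecDepth 100000 in
set_option maxHeartbeats 4000000 in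
theorem order_dec : ∀ B C d k0 k1 k2 n0 n1 n2 n3 : ZMod 2,
    C * k0 + d = 0 → B * (n0 * k0) = 0 →
    B * (n0 * k1 + n1 * k0) + C * k1 + d = 0 →
    B * (n0 * k2 + n1 * k1 + n2 * k0) = 0 →
    B * (n1 * k2 + n2 * k1 + n3 * k0) + C * k2 = 0 →
    B * (n2 * k2 + n3 * k1) = 0 → B * (n3 * k2) + d = 0 →
    (B = 1 ∨ C = 1 ∨ d = 1) → ¬ (k0 = 0 ∧ k1 = 0 ∧ k2 = 0) →
    ¬ (n0 = 0 ∧ n1 = 0 ∧ n2 = 0 ∧ n3 = 0) →
    B = 1 ∧ C = 1 ∧ d = 0 ∧ k0 = 0 ∧ k1 = n0 ∧ k2 = n1 ∧ n2 = 0 ∧ n3 = 0 := by decide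

set_option maxRecDepth 100000 in
set_option maxHeartbeats 4000000 in
theorem sign_dec : ∀ k0 k1 k2 n0 n1 n2 n3 : ZMod 2,
    n0 = 0 → n0 * k0 = 0 → n1 + (n0 * k1 + n1 * k0) = 0 →
    n0 * k2 + n1 * k1 + n2 * k0 = 0 → n2 + (n1 * k2 + n2 * k1 + n3 * k0) = 0 →
    n2 * k2 + n3 * k1 = 0 → n3 + n3 * k2 = 0 → ¬ (k0 = 0 ∧ k1 = 0 ∧ k2 = 0) →
    (n0 = 0 ∧ n1 = 0 ∧ n2 = 0 ∧ n3 = 0) ∨ (n0 = 0 ∧ n1 = k0 ∧ n2 = k1 ∧ n3 = k2) := by decide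

set_option maxRecDepth 100000 in
set_option maxHeartbeats 4000000 in
theorem content_dec : ∀ P Q r0 r1 r2 r3 r4 n0 n1 : ZMod 2, ∀ k0 k1 k2 : ZMod 2,
    r0 * k0 + P * n0 + Q = 0 → r0 * k1 + r1 * k0 = 0 →
    r0 * k2 + r1 * k1 + r2 * k0 + P * n1 + Q = 0 → r1 * k2 + r2 * k1 + r3 * k0 = 0 →
    r2 * k2 + r3 * k1 + r4 * k0 = 0 → r3 * k2 + r4 * k1 = 0 → r4 * k2 + Q = 0 →
    ¬ (k0 = 0 ∧ k1 = 0 ∧ k2 = 0) →
    (P = 0 → Q = 0 → r0 = 0 ∧ r1 = 0 ∧ r2 = 0 ∧ r3 = 0 ∧ r4 = 0) ∧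
    (k0 = 0 → k1 = n0 → k2 = n1 → (P = 1 ∨ Q = 1) → k2 = 1 ∧ k1 = 0) := by decide

/-- If `2 ^ t` divides `P` and `Q` and `R k + P n² + Q f18 = 0`, then it divides `R`; so if they
are not both divisible by a higher power, `k ≡ x²`. -/
theorem content_step {k0 k1 k2 n0 n1 n2 n3 : ℤ_[2]}
    (hk : ¬ (red2 k0 = 0 ∧ red2 k1 = 0 ∧ red2 k2 = 0)) (hk0 : red2 k0 = 0)
    (hk1 : red2 k1 = red2 n0) (hk2 : red2 k2 = red2 n1) (hn2 : red2 n2 = 0) (hn3 : red2 n3 = 0) :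
    ∀ t : ℕ, ∀ P Q r0 r1 r2 r3 r4 : ℤ_[2],
    (∀ x : ℤ_[2], (r4 * x ^ 4 + r3 * x ^ 3 + r2 * x ^ 2 + r1 * x + r0)
      * (k2 * x ^ 2 + k1 * x + k0) + 2 ^ t * P * (n3 * x ^ 3 + n2 * x ^ 2 + n1 * x + n0) ^ 2
      + 2 ^ t * Q * f18 x = 0) →
    red2 P = 1 ∨ red2 Q = 1 → red2 k2 = 1 ∧ red2 k1 = 0 := by
  have hcoef : ∀ P Q r0 r1 r2 r3 r4 : ℤ_[2],
      (∀ x : ℤ_[2], (r4 * x ^ 4 + r3 * x ^ 3 + r2 * x ^ 2 + r1 * x + r0)
        * (k2 * x ^ 2 + k1 * x + k0) + P * (n3 * x ^ 3 + n2 * x ^ 2 + n1 * x + n0) ^ 2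
        + Q * f18 x = 0) →
      (red2 P = 0 → red2 Q = 0 → red2 r0 = 0 ∧ red2 r1 = 0 ∧ red2 r2 = 0 ∧ red2 r3 = 0 ∧
        red2 r4 = 0) ∧ (red2 P = 1 ∨ red2 Q = 1 → red2 k2 = 1 ∧ red2 k1 = 0) := by
    intro P Q r0 r1 r2 r3 r4 h
    obtain ⟨c0, c1, c2, c3, c4, c5, c6⟩ := coeffs_eq_zero
      (r0 * k0 + P * n0 ^ 2 + Q)
      (r0 * k1 + r1 * k0 + P * (2 * n0 * n1) + Q * 2)
      (r0 * k2 + r1 * k1 + r2 * k0 + P * (n1 ^ 2 + 2 * n0 * n2) + Q * 5)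
      (r1 * k2 + r2 * k1 + r3 * k0 + P * (2 * n0 * n3 + 2 * n1 * n2) + Q * 10)
      (r2 * k2 + r3 * k1 + r4 * k0 + P * (n2 ^ 2 + 2 * n1 * n3) + Q * 10)
      (r3 * k2 + r4 * k1 + P * (2 * n2 * n3) + Q * 4)
      (r4 * k2 + P * n3 ^ 2 + Q)
      (fun x => by have := h x; simp only [f18] at this; linear_combination this)
    have h2 : (2 : ZMod 2) = 0 := rfl
    have hsq : ∀ x : ZMod 2, x ^ 2 = x := by decide
    replace c0 := congrArg red2 c0; replace c1 := congrArg red2 c1; replace c2 := congrArg red2 c2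
    replace c3 := congrArg red2 c3; replace c4 := congrArg red2 c4; replace c5 := congrArg red2 c5
    replace c6 := congrArg red2 c6
    simp only [map_add, map_mul, map_pow, map_ofNat, map_zero, h2, hsq, hn2, hn3, mul_zero,
      zero_mul, add_zero, show (4 : ZMod 2) = 0 from rfl, show (5 : ZMod 2) = 1 from rfl, show (10 : ZMod 2) = 0 from rfl, mul_one]
      at c0 c1 c2 c3 c4 c5 c6
    obtain ⟨a, b⟩ := content_dec _ _ _ _ _ _ _ _ _ _ _ _ c0 c1 c2 c3 c4 c5 c6 hk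
    exact ⟨a, b hk0 hk1 hk2⟩
  intro t
  induction t with
  | zero =>
    intro P Q r0 r1 r2 r3 r4 h hPQ
    exact (hcoef P Q r0 r1 r2 r3 r4 (by simpa using h)).2 hPQ
  | succ t ih =>
    intro P Q r0 r1 r2 r3 r4 h hPQ
    obtain ⟨e0, e1, e2, e3, e4⟩ := (hcoef _ _ r0 r1 r2 r3 r4 h).1
      (by rw [map_mul, map_pow, red2_two, zero_pow (by omega), zero_mul])
      (by rw [map_mul, map_pow, red2_two, zero_pow (by omega), zero_mul])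
    obtain ⟨s0, rfl⟩ := red2_eq_zero.1 e0
    obtain ⟨s1, rfl⟩ := red2_eq_zero.1 e1
    obtain ⟨s2, rfl⟩ := red2_eq_zero.1 e2
    obtain ⟨s3, rfl⟩ := red2_eq_zero.1 e3
    obtain ⟨s4, rfl⟩ := red2_eq_zero.1 e4
    refine ih P Q s0 s1 s2 s3 s4 (fun x => mul_left_cancel₀ (two_ne_zero (α := ℤ_[2])) ?_) hPQ
    rw [mul_zero]
    linear_combination h x

/-- Four `2`-adic integers, not all zero, are a power of `2` times four not all even ones. -/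
theorem exists_content {a b c d : ℤ_[2]} (h : ¬ (a = 0 ∧ b = 0 ∧ c = 0 ∧ d = 0)) :
    ∃ (j : ℕ) (a' b' c' d' : ℤ_[2]), a = 2 ^ j * a' ∧ b = 2 ^ j * b' ∧ c = 2 ^ j * c' ∧
      d = 2 ^ j * d' ∧ ¬ (red2 a' = 0 ∧ red2 b' = 0 ∧ red2 c' = 0 ∧ red2 d' = 0) := by
  by_contra hcon
  have hall : ∀ j : ℕ, 2 ^ j ∣ a ∧ 2 ^ j ∣ b ∧ 2 ^ j ∣ c ∧ 2 ^ j ∣ d := by
    intro j
    induction j with
    | zero => simp
    | succ j ih =>
      obtain ⟨⟨a', rfl⟩, ⟨b', rfl⟩, ⟨c', rfl⟩, ⟨d', rfl⟩⟩ := ih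
      have : red2 a' = 0 ∧ red2 b' = 0 ∧ red2 c' = 0 ∧ red2 d' = 0 := by
        by_contra hn
        exact hcon ⟨j, a', b', c', d', rfl, rfl, rfl, rfl, hn⟩
      rw [pow_succ]
      exact ⟨mul_dvd_mul_left _ (red2_eq_zero.1 this.1), mul_dvd_mul_left _ (red2_eq_zero.1 this.2.1),
        mul_dvd_mul_left _ (red2_eq_zero.1 this.2.2.1), mul_dvd_mul_left _ (red2_eq_zero.1 this.2.2.2)⟩
  refine h ⟨?_, ?_, ?_, ?_⟩ <;> by_contra hne <;> obtain ⟨n, hn⟩ := exists_exact hne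
  · exact hn.not_dvd (hall _).1
  · exact hn.not_dvd (hall _).2.1
  · exact hn.not_dvd (hall _).2.2.1
  · exact hn.not_dvd (hall _).2.2.2

/-- The branch `γ ≡ 0`: with `l = x k + 2μ`, `U = u ((x - m)² - D)`, one has `k ≡ x² (mod 2)`. -/
theorem order_step {u m D ε k0 k1 k2 μ0 μ1 μ2 μ3 : ℤ_[2]} {δ e' : ℕ} (hu : 8 ∣ u - 1)
    (hm : 2 ∣ m) (hδ : 2 ≤ δ) (hD : Exact (2 * δ) D) (he' : 2 ≤ e') (hε : Exact (2 * e') ε)
    (hk : ¬ (2 ∣ k0 ∧ 2 ∣ k1 ∧ 2 ∣ k2))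
    (h : ∀ x : ℤ_[2], (x * (k2 * x ^ 2 + k1 * x + k0)
        + 2 * (μ3 * x ^ 3 + μ2 * x ^ 2 + μ1 * x + μ0)) ^ 2
      - u * ((x - m) ^ 2 - D) * (k2 * x ^ 2 + k1 * x + k0) ^ 2 = ε * f18 x) :
    red2 k2 = 1 ∧ red2 k1 = 0 ∧ red2 k0 = 0 := by
  have hk' : ¬ (red2 k0 = 0 ∧ red2 k1 = 0 ∧ red2 k2 = 0) := by
    simpa only [red2_eq_zero] using hk
  obtain ⟨ρ, hρ⟩ := exists_sq_eq hu
  obtain ⟨a, ha⟩ := hm
  have hρ1 : red2 ρ = 1 := by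
    obtain ⟨z, hz⟩ := (show (2 : ℤ_[2]) ∣ 8 from ⟨4, by norm_num⟩).trans hu
    have := congrArg red2 (show ρ ^ 2 = 1 + 2 * z by linear_combination hρ + hz)
    rw [map_pow, map_add, map_one, map_mul, red2_two, zero_mul, add_zero] at this
    rcases zmod2_cases (red2 ρ) with h | h
    · rw [h] at this; simp at this
    · exact h
  have hm0 : red2 m = 0 := red2_eq_zero.2 ⟨a, ha⟩
  obtain ⟨ρ', hρ'⟩ : (2 : ℤ_[2]) ∣ 1 - ρ := red2_eq_zero.1 (by rw [map_sub, map_one, hρ1, sub_self])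
  obtain ⟨D₀, hD₀, rfl⟩ := hD
  obtain ⟨ε₀, hε₀, rfl⟩ := hε
  have hp4 : ∀ n : ℕ, 1 ≤ n → (2 : ℤ_[2]) ^ (2 * n) = 4 * 2 ^ (2 * (n - 1)) := fun n hn => by
    obtain ⟨n, rfl⟩ : ∃ k, n = k + 1 := ⟨n - 1, by omega⟩
    rw [Nat.add_sub_cancel]; ring
  obtain ⟨C, hC⟩ : ∃ C, C = 2 ^ (2 * (δ - 1)) * (u * D₀) := ⟨_, rfl⟩
  obtain ⟨d, hd⟩ : ∃ d, d = -(2 ^ (2 * (e' - 1)) * ε₀) := ⟨_, rfl⟩
  -- `N = (l - ρ (x - m) k) / 2`
  have hN : ∀ x : ℤ_[2],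
      1 * ((μ3 + ρ' * k2) * x ^ 3 + (μ2 + ρ * a * k2 + ρ' * k1) * x ^ 2
        + (μ1 + ρ * a * k1 + ρ' * k0) * x + (μ0 + ρ * a * k0)) ^ 2
      + 1 * ((μ3 + ρ' * k2) * x ^ 3 + (μ2 + ρ * a * k2 + ρ' * k1) * x ^ 2
        + (μ1 + ρ * a * k1 + ρ' * k0) * x + (μ0 + ρ * a * k0))
        * (ρ * (x - m) * (k2 * x ^ 2 + k1 * x + k0))
      + C * (k2 * x ^ 2 + k1 * x + k0) ^ 2 + d * f18 x = 0 := by
    intro x
    refine mul_left_cancel₀ (show (4 : ℤ_[2]) ≠ 0 by norm_num) ?_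
    have h' := h x
    rw [hp4 δ (by omega), hp4 e' (by omega)] at h'
    rw [hC, hd, mul_zero]
    have hl : x * (k2 * x ^ 2 + k1 * x + k0) + 2 * (μ3 * x ^ 3 + μ2 * x ^ 2 + μ1 * x + μ0) =
        2 * ((μ3 + ρ' * k2) * x ^ 3 + (μ2 + ρ * a * k2 + ρ' * k1) * x ^ 2
          + (μ1 + ρ * a * k1 + ρ' * k0) * x + (μ0 + ρ * a * k0))
        + ρ * (x - m) * (k2 * x ^ 2 + k1 * x + k0) := by
      linear_combination (x * (k2 * x ^ 2 + k1 * x + k0)) * hρ'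
        + ρ * (k2 * x ^ 2 + k1 * x + k0) * ha
    rw [hl] at h'
    linear_combination h' - (x - m) ^ 2 * (k2 * x ^ 2 + k1 * x + k0) ^ 2 * hρ
  obtain ⟨hCd1, hCd2⟩ : red2 C = 0 ∧ red2 d = 0 := by
    rw [hC, hd, map_neg, map_mul, map_mul red2 _ ε₀, map_pow, map_pow, red2_two,
      zero_pow (by omega), zero_pow (by omega)]
    simp
  obtain ⟨c0, c1, c2, c3, c4, c5, c6⟩ := comb_coeffs hρ1 hm0 hN
  simp only [map_one, one_mul, hCd1, hCd2, zero_mul, add_zero] at c0 c1 c2 c3 c4 c5 c6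
  -- choose the sign so that `N` is even
  obtain ⟨N0, N1, N2, N3, z0, z1, z2, z3, hNN⟩ : ∃ N0 N1 N2 N3 : ℤ_[2],
      red2 N0 = 0 ∧ red2 N1 = 0 ∧ red2 N2 = 0 ∧ red2 N3 = 0 ∧
      ∀ x : ℤ_[2], (N3 * x ^ 3 + N2 * x ^ 2 + N1 * x + N0) ^ 2
        + (N3 * x ^ 3 + N2 * x ^ 2 + N1 * x + N0) * (ρ * (x - m) * (k2 * x ^ 2 + k1 * x + k0))
        + C * (k2 * x ^ 2 + k1 * x + k0) ^ 2 + d * f18 x = 0 := by
    rcases sign_dec _ _ _ _ _ _ _ c0 c1 c2 c3 c4 c5 c6 hk' with ⟨n0, n1, n2, n3⟩ | ⟨n0, n1, n2, n3⟩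
    · exact ⟨_, _, _, _, n0, n1, n2, n3, fun x => by linear_combination hN x⟩
    · refine ⟨-(μ0 + ρ * a * k0) + ρ * m * k0, -(μ1 + ρ * a * k1 + ρ' * k0) - ρ * (k0 - m * k1),
        -(μ2 + ρ * a * k2 + ρ' * k1) - ρ * (k1 - m * k2), -(μ3 + ρ' * k2) - ρ * k2, ?_, ?_, ?_, ?_,
        fun x => by linear_combination hN x⟩
      · rw [map_add, map_neg, n0, map_mul, map_mul, hm0]; simp
      · rw [map_sub, map_neg, n1, map_mul, map_sub, map_mul red2 m, hρ1, hm0]; simp [CharTwo.sub_eq_add]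
      · rw [map_sub, map_neg, n2, map_mul, map_sub, map_mul red2 m, hρ1, hm0]; simp [CharTwo.sub_eq_add]
      · rw [map_sub, map_neg, n3, map_mul, hρ1]; simp
  have hd0 : d ≠ 0 := by
    rw [hd, neg_ne_zero]
    exact mul_ne_zero (pow_ne_zero _ two_ne_zero) fun e => by rw [e, map_zero] at hε₀; simp at hε₀
  have hN0 : ¬ (N0 = 0 ∧ N1 = 0 ∧ N2 = 0 ∧ N3 = 0) := by
    rintro ⟨rfl, rfl, rfl, rfl⟩
    obtain ⟨-, -, -, -, -, -, e6⟩ := coeffs_eq_zero (C * k0 ^ 2 + d) (C * (2 * k0 * k1) + d * 2)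
      (C * (k1 ^ 2 + 2 * k0 * k2) + d * 5) (C * (2 * k1 * k2) + d * 10) (C * k2 ^ 2 + d * 10) (d * 4) d
      (fun x => by have := hNN x; simp only [f18] at this; linear_combination this)
    exact hd0 e6
  obtain ⟨j, n0, n1, n2, n3, rfl, rfl, rfl, rfl, hn⟩ := exists_content hN0
  have hj : 1 ≤ j := by
    by_contra h0
    obtain rfl : j = 0 := by omega
    exact hn ⟨by simpa using z0, by simpa using z1, by simpa using z2, by simpa using z3⟩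
  obtain ⟨hC0, hu1⟩ : red2 (u * D₀) = 1 ∧ red2 u = 1 := by
    obtain ⟨z, hz⟩ := (show (2 : ℤ_[2]) ∣ 8 from ⟨4, by norm_num⟩).trans hu
    have : red2 u = 1 := by
      rw [show u = 1 + 2 * z by linear_combination hz, map_add, map_one, map_mul, red2_two,
        zero_mul, add_zero]
    exact ⟨by rw [map_mul, this, hD₀, one_mul], this⟩
  have hflag : ∀ {p q : ℕ}, q < p → red2 (2 ^ (p - q)) = 0 := fun hpq => by
    rw [map_pow, red2_two, zero_pow (by omega)]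
  have hpow : ∀ {p q : ℕ}, q ≤ p → (2 : ℤ_[2]) ^ p = 2 ^ q * 2 ^ (p - q) := fun h => by
    rw [← pow_add, Nat.add_sub_cancel' h]
  -- the lowest terms
  obtain ⟨q, hq⟩ : ∃ q, q = min j (min (2 * (δ - 1)) (2 * (e' - 1))) := ⟨_, rfl⟩
  obtain ⟨c0, c1, c2, c3, c4, c5, c6⟩ := comb_coeffs (A := 2 ^ (2 * j - q)) (B := 2 ^ (j - q))
    (C := 2 ^ (2 * (δ - 1) - q) * (u * D₀)) (d := -(2 ^ (2 * (e' - 1) - q) * ε₀))
    (n0 := n0) (n1 := n1) (n2 := n2) (n3 := n3) (k0 := k0) (k1 := k1) (k2 := k2) hρ1 hm0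
    (fun x => mul_left_cancel₀ (pow_ne_zero q two_ne_zero : (2 : ℤ_[2]) ^ q ≠ 0) (by
      have := hNN x
      rw [hC, hd, hpow (show q ≤ 2 * (δ - 1) by omega), hpow (show q ≤ 2 * (e' - 1) by omega)]
        at this
      have e1 : (2 : ℤ_[2]) ^ q * 2 ^ (2 * j - q) = (2 ^ j) ^ 2 := by
        rw [← hpow (by omega), ← pow_mul, mul_comm]
      have e2 : (2 : ℤ_[2]) ^ q * 2 ^ (j - q) = 2 ^ j := (hpow (by omega)).symm
      rw [mul_zero]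
      linear_combination this + (n3 * x ^ 3 + n2 * x ^ 2 + n1 * x + n0) ^ 2 * e1
        + (n3 * x ^ 3 + n2 * x ^ 2 + n1 * x + n0) * (ρ * (x - m) * (k2 * x ^ 2 + k1 * x + k0))
          * e2))
  simp only [hflag (show q < 2 * j by omega), zero_mul, zero_add, map_neg, map_mul red2 _ ε₀,
    map_mul red2 (2 ^ (2 * (δ - 1) - q)), hC0, hε₀, mul_one, CharTwo.neg_eq]
    at c0 c1 c2 c3 c4 c5 c6
  have hsome : red2 (2 ^ (j - q)) = 1 ∨ red2 (2 ^ (2 * (δ - 1) - q)) = 1 ∨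
      red2 (2 ^ (2 * (e' - 1) - q)) = 1 := by
    rcases (by omega : q = j ∨ q = 2 * (δ - 1) ∨ q = 2 * (e' - 1)) with e | e | e <;>
      simp [e]
  obtain ⟨hB, hC', hd', hk00, hk10, hk20, hn20, hn30⟩ :=
    order_dec _ _ _ _ _ _ _ _ _ _ c0 c1 c2 c3 c4 c5 c6 hsome hk' hn
  have heq : ∀ {p : ℕ}, red2 (2 ^ (p - q)) = 1 → p ≤ q := fun {p} h1 => by
    by_contra hlt
    rw [hflag (by omega)] at h1
    exact zero_ne_one h1
  obtain rfl : j = 2 * (δ - 1) := le_antisymm (le_trans (heq hB) (by omega))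
    (le_trans (heq hC') (by omega))
  have hlt : 2 * (δ - 1) < 2 * (e' - 1) := by
    by_contra hle
    rw [show 2 * (e' - 1) - q = 0 by omega, pow_zero, map_one] at hd'
    exact one_ne_zero hd'
  -- the next terms
  obtain ⟨t, ht⟩ : ∃ t, t = min (2 * (δ - 1)) (2 * (e' - 1) - 2 * (δ - 1)) := ⟨_, rfl⟩
  refine ⟨(content_step hk' hk00 hk10 hk20 hn20 hn30 t (2 ^ (2 * (δ - 1) - t))
    (-(2 ^ (2 * (e' - 1) - 2 * (δ - 1) - t) * ε₀))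
    (-(ρ * m * n0) + u * D₀ * k0) (ρ * (n0 - m * n1) + u * D₀ * k1)
    (ρ * (n1 - m * n2) + u * D₀ * k2) (ρ * (n2 - m * n3)) (ρ * n3) ?_ ?_).1,
    (content_step hk' hk00 hk10 hk20 hn20 hn30 t (2 ^ (2 * (δ - 1) - t))
    (-(2 ^ (2 * (e' - 1) - 2 * (δ - 1) - t) * ε₀))
    (-(ρ * m * n0) + u * D₀ * k0) (ρ * (n0 - m * n1) + u * D₀ * k1)
    (ρ * (n1 - m * n2) + u * D₀ * k2) (ρ * (n2 - m * n3)) (ρ * n3) ?_ ?_).2, hk00⟩
  all_goals first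
    | (intro x
       refine mul_left_cancel₀ (pow_ne_zero (2 * (δ - 1)) two_ne_zero :
         (2 : ℤ_[2]) ^ (2 * (δ - 1)) ≠ 0) ?_
       have := hNN x
       rw [hC, hd, hpow (show 2 * (δ - 1) ≤ 2 * (e' - 1) by omega),
         hpow (show t ≤ 2 * (e' - 1) - 2 * (δ - 1) by omega)] at this
       have e1 := hpow (show t ≤ 2 * (δ - 1) by omega)
       rw [mul_zero]
       linear_combination this
         - 2 ^ (2 * (δ - 1)) * (n3 * x ^ 3 + n2 * x ^ 2 + n1 * x + n0) ^ 2 * e1)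
    | (rcases (by omega : t = 2 * (δ - 1) ∨ t = 2 * (e' - 1) - 2 * (δ - 1)) with e | e
       · left; rw [e]; simp
       · right; rw [e]; simp [hε₀])

end FA.Torsion.Eighteen

end
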