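import Fermat.Agent.Torsion.Eighteen.Sqrt
import Fermat.Agent.Torsion.Eighteen.Kernel
import Fermat.Agent.Torsion.Eighteen.Mod4

/-!
# The descent on `X₁(18)`

A state is a primitive quadratic `U` with `U | f18 - V²` whose roots are `m ± √D` with `m` even,
`v(D) = 2δ` and `V (m)` even.  From a state of level `δ` one gets one of level `δ - 1 ≥ 1`, so
there are none.
-/

set_option autoImplicit false
set_option linter.style.maxHeartbeats false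

noncomputable section

open Polynomial

namespace FA.Torsion.Eighteen

theorem eval_transfer {R S : Type} [CommRing R] [IsDomain R] [Infinite R] [CommRing S] (φ : R →+* S)
    {p : R[X]} (h : ∀ x, p.eval x = 0) (y : S) : p.eval₂ φ y = 0 := by
  rw [Polynomial.funext (p := p) (q := 0) (fun x => by simpa using h x), eval₂_zero]

/-- An identity over `ℤ` holds over `ℤ₂`. -/
theorem identity_int {u2 u1 u0 k2 k1 k0 l3 l2 l1 l0 e : ℤ}
    (h : ∀ x : ℤ, (l3 * x ^ 3 + l2 * x ^ 2 + l1 * x + l0) ^ 2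
      - (u2 * x ^ 2 + u1 * x + u0) * (k2 * x ^ 2 + k1 * x + k0) ^ 2 = e * f18 x) (x : ℤ_[2]) :
    ((l3 : ℤ_[2]) * x ^ 3 + l2 * x ^ 2 + l1 * x + l0) ^ 2
      - ((u2 : ℤ_[2]) * x ^ 2 + u1 * x + u0) * (k2 * x ^ 2 + k1 * x + k0) ^ 2 = e * f18 x := by
  have := eval_transfer (Int.castRingHom ℤ_[2])
    (p := (C l3 * X ^ 3 + C l2 * X ^ 2 + C l1 * X + C l0) ^ 2
      - (C u2 * X ^ 2 + C u1 * X + C u0) * (C k2 * X ^ 2 + C k1 * X + C k0) ^ 2 - C e * f18 X)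
    (fun z => by have := h z; simp [f18] at this ⊢; linear_combination this) x
  simp only [f18, eval₂_sub, eval₂_add, eval₂_mul, eval₂_pow, eval₂_C, eval₂_X, eval₂_ofNat, eval₂_one,
    Int.coe_castRingHom] at this ⊢
  linear_combination this

/-- An identity over `ℚ` holds over `ℚ₂`. -/
theorem identity_rat {u2 u1 u0 v1 v0 w4 w3 w2 w1 w0 : ℚ}
    (h : ∀ x : ℚ, f18 x = (v1 * x + v0) ^ 2
      + (u2 * x ^ 2 + u1 * x + u0) * (w4 * x ^ 4 + w3 * x ^ 3 + w2 * x ^ 2 + w1 * x + w0))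
    (x : ℚ_[2]) :
    f18 x = ((v1 : ℚ_[2]) * x + v0) ^ 2
      + ((u2 : ℚ_[2]) * x ^ 2 + u1 * x + u0)
        * (w4 * x ^ 4 + w3 * x ^ 3 + w2 * x ^ 2 + w1 * x + w0) := by
  have := eval_transfer (algebraMap ℚ ℚ_[2])
    (p := f18 X - (C v1 * X + C v0) ^ 2 - (C u2 * X ^ 2 + C u1 * X + C u0)
        * (C w4 * X ^ 4 + C w3 * X ^ 3 + C w2 * X ^ 2 + C w1 * X + C w0))
    (fun z => by have := h z; simp [f18] at this ⊢; linear_combination this) x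
  simp only [f18, eval₂_sub, eval₂_add, eval₂_mul, eval₂_pow, eval₂_C, eval₂_X, eval₂_ofNat, eval₂_one,
    eq_ratCast] at this ⊢
  linear_combination this

/-- A descent state of level `δ`. -/
def DescentState (δ : ℕ) : Prop :=
  ∃ (u2 u1 u0 : ℤ) (v1 v0 w4 w3 w2 w1 w0 : ℚ) (m D P : ℤ_[2]),
    4 ∣ u2 - 1 ∧ (∀ p : ℕ, p.Prime → ¬ ((p : ℤ) ∣ u2 ∧ (p : ℤ) ∣ u1 ∧ (p : ℤ) ∣ u0)) ∧
    (∀ x : ℚ, f18 x = (v1 * x + v0) ^ 2
      + (u2 * x ^ 2 + u1 * x + u0) * (w4 * x ^ 4 + w3 * x ^ 3 + w2 * x ^ 2 + w1 * x + w0)) ∧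
    1 ≤ δ ∧ 2 ∣ m ∧ Exact (2 * δ) D ∧ 2 ∣ P ∧ incl P = v1 * incl m + v0 ∧
    (u1 : ℤ_[2]) = -2 * u2 * m ∧ (u0 : ℤ_[2]) = u2 * (m ^ 2 - D)

/-- Divide a quadratic by its content, with leading coefficient `≡ 1 (mod 4)`. -/
theorem normalise {k2 k1 k0 : ℤ} (h : Odd k2) :
    ∃ g k2' k1' k0' : ℤ, Odd g ∧ k2 = g * k2' ∧ k1 = g * k1' ∧ k0 = g * k0' ∧ 4 ∣ k2' - 1 ∧
      ∀ p : ℕ, p.Prime → ¬ ((p : ℤ) ∣ k2' ∧ (p : ℤ) ∣ k1' ∧ (p : ℤ) ∣ k0') := by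
  have hk2 : k2 ≠ 0 := by rintro rfl; simp at h
  obtain ⟨d, hd⟩ : ∃ d : ℤ, d = Int.gcd (Int.gcd k2 k1) k0 := ⟨_, rfl⟩
  obtain ⟨a, ha⟩ : d ∣ k2 := hd ▸ (Int.gcd_dvd_left _ _).trans (Int.gcd_dvd_left _ _)
  obtain ⟨b, hb⟩ : d ∣ k1 := hd ▸ (Int.gcd_dvd_left _ _).trans (Int.gcd_dvd_right _ _)
  obtain ⟨c, hc⟩ : d ∣ k0 := hd ▸ Int.gcd_dvd_right _ _
  have hd0 : d ≠ 0 := fun e => hk2 (by rw [ha, e, zero_mul])
  have hda : Odd d ∧ Odd a := Int.odd_mul.1 (ha ▸ h)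
  have hprim : ∀ p : ℕ, p.Prime → ¬ ((p : ℤ) ∣ a ∧ (p : ℤ) ∣ b ∧ (p : ℤ) ∣ c) := by
    rintro p hp ⟨pa, pb, pc⟩
    have h1 : d * p ∣ (Int.gcd k2 k1 : ℤ) :=
      Int.dvd_coe_gcd (ha ▸ mul_dvd_mul_left _ pa) (hb ▸ mul_dvd_mul_left _ pb)
    have h2 : d * p ∣ d := by
      conv_rhs => rw [hd]
      exact Int.dvd_coe_gcd h1 (hc ▸ mul_dvd_mul_left _ pc)
    obtain ⟨z, hz⟩ := h2
    have : (p : ℤ) ∣ 1 := ⟨z, mul_left_cancel₀ hd0 (by linear_combination hz)⟩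
    exact hp.ne_one (Nat.eq_one_of_dvd_one (Int.natCast_dvd_natCast.1 (by simpa using this)))
  obtain ⟨n, hn⟩ := hda.2
  rcases Int.even_or_odd n with ⟨r, hr⟩ | ⟨r, hr⟩
  · exact ⟨d, a, b, c, hda.1, ha, hb, hc, ⟨r, by omega⟩, hprim⟩
  · refine ⟨-d, -a, -b, -c, hda.1.neg, by rw [ha]; ring, by rw [hb]; ring, by rw [hc]; ring,
      ⟨-r - 1, by omega⟩, fun p hp => ?_⟩
    simpa only [dvd_neg] using hprim p hp

/-- The value of `l` at the roots of `U`. -/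
theorem remainder_eqs {R : Type} [CommRing R] [IsDomain R] [Infinite R] {u m D e q2 q1 q0 a b c d : R}
    (h2 : (2 : R) ≠ 0)
    (h : ∀ z : R, (a + b * z + c * z ^ 2 + d * z ^ 3) ^ 2
      - u * (z ^ 2 - D) * (q2 * z ^ 2 + q1 * z + q0) ^ 2 = e * f18 (m + z)) :
    (a + c * D) ^ 2 + D * (b + d * D) ^ 2 = e * fE m D ∧
      (a + c * D) * (b + d * D) = e * gO m D := by
  obtain ⟨c0, c1, c2, c3, c4, c5, c6⟩ := coeffs_eq_zero
    (a ^ 2 + u * D * q0 ^ 2 - e * f18 m)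
    (2 * a * b + u * D * (2 * q1 * q0)
      - e * (6 * m ^ 5 + 20 * m ^ 4 + 40 * m ^ 3 + 30 * m ^ 2 + 10 * m + 2))
    (b ^ 2 + 2 * a * c + u * D * (q1 ^ 2 + 2 * q2 * q0) - u * q0 ^ 2
      - e * (15 * m ^ 4 + 40 * m ^ 3 + 60 * m ^ 2 + 30 * m + 5))
    (2 * a * d + 2 * b * c + u * D * (2 * q2 * q1) - u * (2 * q1 * q0)
      - e * (20 * m ^ 3 + 40 * m ^ 2 + 40 * m + 10))
    (c ^ 2 + 2 * b * d + u * D * q2 ^ 2 - u * (q1 ^ 2 + 2 * q2 * q0)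
      - e * (15 * m ^ 2 + 20 * m + 10))
    (2 * c * d - u * (2 * q2 * q1) - e * (6 * m + 4)) (d ^ 2 - u * q2 ^ 2 - e)
    (fun z => by have := h z; simp only [f18] at this ⊢; linear_combination this)
  refine ⟨?_, mul_left_cancel₀ h2 ?_⟩
  · simp only [fE]; linear_combination c0 + D * c2 + D ^ 2 * c4 + D ^ 3 * c6
  · simp only [gO]; linear_combination c1 + D * c3 + D ^ 2 * c5

theorem incl_intCast (n : ℤ) : incl (n : ℤ_[2]) = (n : ℚ_[2]) := map_intCast _ _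

/-- Once `2E ∣ A`, the remainder of `l` modulo `U` is a rational multiple of `V`. -/
theorem rational_sqrt {u2 u1 u0 l3 l2 l1 e : ℤ} {v1 : ℚ} (hu2 : u2 ≠ 0) {m P Q₀ d₀ A B E : ℤ_[2]}
    {δ : ℕ} (hd : red2 d₀ = 1) (hQ : red2 Q₀ = 1) (hP0 : P ≠ 0) (hE : E ≠ 0)
    (hQv : incl Q₀ = 2 ^ δ * (v1 : ℚ_[2])) (hu1 : (u1 : ℤ_[2]) = -2 * u2 * m)
    (hu0 : (u0 : ℤ_[2]) = u2 * (m ^ 2 - (2 ^ δ * d₀) ^ 2))
    (hPQ : P * Q₀ = 2 ^ δ * gO m ((2 ^ δ * d₀) ^ 2))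
    (hPQ2 : P ^ 2 + d₀ ^ 2 * Q₀ ^ 2 = fE m ((2 ^ δ * d₀) ^ 2))
    (hA : A ^ 2 + (2 ^ δ * d₀) ^ 2 * B ^ 2 = E ^ 2 * fE m ((2 ^ δ * d₀) ^ 2))
    (hAB : A * B = E ^ 2 * gO m ((2 ^ δ * d₀) ^ 2)) (h2 : 2 * E ∣ A)
    (hB : B = l1 + 2 * l2 * m + 3 * l3 * m ^ 2 + l3 * (2 ^ δ * d₀) ^ 2)
    (he : (e : ℤ_[2]) = E ^ 2) :
    ∃ (Er : ℚ) (σ : ℤ_[2]), σ ^ 2 = 1 ∧ Er ≠ 0 ∧ (Er : ℚ_[2]) = incl (σ * E) ∧ (e : ℚ) = Er ^ 2 := by
  obtain ⟨σ, hσ, -, hB'⟩ := proportional hd hQ hP0 hE hPQ hPQ2 hA hAB h2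
  have hv1 : v1 ≠ 0 := by
    rintro rfl
    rw [Rat.cast_zero, mul_zero, ← map_zero incl] at hQv
    rw [Subtype.coe_injective hQv, map_zero] at hQ
    exact zero_ne_one hQ
  obtain ⟨r1, hr1⟩ : ∃ r1 : ℚ,
      r1 = l1 - l3 / u2 * u0 - (l2 - l3 / u2 * u1) / u2 * u1 := ⟨_, rfl⟩
  have hrB : (r1 : ℚ_[2]) = incl B := by
    have h1 : (u1 : ℚ_[2]) = -2 * u2 * incl m := by
      rw [← incl_intCast, hu1]; simp only [map_mul, map_neg, map_ofNat, incl_intCast]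
    have h0 : (u0 : ℚ_[2]) = u2 * (incl m ^ 2 - incl ((2 ^ δ * d₀) ^ 2)) := by
      rw [← incl_intCast, hu0]; simp only [map_mul, map_sub, map_pow, incl_intCast]
    rw [hr1, hB]
    simp only [map_add, map_mul, map_pow, map_ofNat, incl_intCast] at h0 ⊢
    push_cast
    rw [h1, h0]
    field_simp
    ring
  have hEr : ((r1 / v1 : ℚ) : ℚ_[2]) = incl (σ * E) := by
    have h' := congrArg incl hB'
    rw [map_mul, map_pow, map_ofNat, map_mul incl (σ * E), hQv, ← hrB] at h'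
    push_cast
    rw [div_eq_iff (Rat.cast_ne_zero.2 hv1)]
    exact mul_left_cancel₀ (pow_ne_zero δ two_ne_zero) (by linear_combination h')
  refine ⟨r1 / v1, σ, hσ, ?_, hEr, ?_⟩
  · intro h0
    rw [h0, Rat.cast_zero, ← map_zero incl] at hEr
    have hσE : σ * E = 0 := (Subtype.coe_injective hEr).symm
    rcases mul_eq_zero.1 hσE with h | h
    · rw [h] at hσ; simp at hσ
    · exact hE h
  · have : ((e : ℚ) : ℚ_[2]) = (((r1 / v1) ^ 2 : ℚ) : ℚ_[2]) := by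
      rw [Rat.cast_pow, hEr, Rat.cast_intCast, ← incl_intCast, he, ← map_pow, mul_pow, hσ, one_mul]
    exact_mod_cast this

/-- The new pair: `f18 = (rem (l, k) / E)² + k W`. -/
theorem next_identity {u2 u1 u0 k2 k1 k0 l3 l2 l1 l0 e : ℤ} {g k2' k1' k0' : ℤ} (hk2 : k2 ≠ 0)
    {Er : ℚ} (hEr : Er ≠ 0) (he : (e : ℚ) = Er ^ 2)
    (h2 : k2 = g * k2') (h1 : k1 = g * k1') (h0 : k0 = g * k0')
    (h : ∀ x : ℤ, (l3 * x ^ 3 + l2 * x ^ 2 + l1 * x + l0) ^ 2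
      - (u2 * x ^ 2 + u1 * x + u0) * (k2 * x ^ 2 + k1 * x + k0) ^ 2 = e * f18 x) :
    ∃ v1 v0 w4 w3 w2 w1 w0 : ℚ,
      v1 = ((l1 : ℚ) - l3 / k2 * k0 - (l2 - l3 / k2 * k1) / k2 * k1) / Er ∧
      v0 = ((l0 : ℚ) - (l2 - l3 / k2 * k1) / k2 * k0) / Er ∧
      ∀ x : ℚ, f18 x = (v1 * x + v0) ^ 2
        + (k2' * x ^ 2 + k1' * x + k0') * (w4 * x ^ 4 + w3 * x ^ 3 + w2 * x ^ 2 + w1 * x + w0) := by
  obtain ⟨q1, hq1⟩ : ∃ q : ℚ, q = (l3 : ℚ) / k2 := ⟨_, rfl⟩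
  obtain ⟨q0, hq0⟩ : ∃ q : ℚ, q = (l2 - q1 * k1) / k2 := ⟨_, rfl⟩
  obtain ⟨r1, hr1⟩ : ∃ q : ℚ, q = l1 - q1 * k0 - q0 * k1 := ⟨_, rfl⟩
  obtain ⟨r0, hr0⟩ : ∃ q : ℚ, q = l0 - q0 * k0 := ⟨_, rfl⟩
  have hk2' : (k2 : ℚ) ≠ 0 := Int.cast_ne_zero.2 hk2
  have hl3 : (l3 : ℚ) = q1 * k2 := by rw [hq1, div_mul_cancel₀ _ hk2']
  have hl2 : (l2 : ℚ) = q0 * k2 + q1 * k1 := by rw [hq0, div_mul_cancel₀ _ hk2', sub_add_cancel]
  refine ⟨r1 / Er, r0 / Er, g * (((q1 ^ 2 - u2) * k2) / Er ^ 2),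
    g * (((q1 ^ 2 - u2) * k1 + (2 * q1 * q0 - u1) * k2) / Er ^ 2),
    g * (((q1 ^ 2 - u2) * k0 + (2 * q1 * q0 - u1) * k1 + (q0 ^ 2 - u0) * k2 + 2 * q1 * r1) / Er ^ 2),
    g * (((2 * q1 * q0 - u1) * k0 + (q0 ^ 2 - u0) * k1 + 2 * (q1 * r0 + q0 * r1)) / Er ^ 2),
    g * (((q0 ^ 2 - u0) * k0 + 2 * q0 * r0) / Er ^ 2),
    by rw [hr1, hq0, hq1], by rw [hr0, hq0, hq1], fun x => ?_⟩
  have hx := eval_transfer (Int.castRingHom ℚ)
    (p := (C l3 * X ^ 3 + C l2 * X ^ 2 + C l1 * X + C l0) ^ 2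
      - (C u2 * X ^ 2 + C u1 * X + C u0) * (C k2 * X ^ 2 + C k1 * X + C k0) ^ 2 - C e * f18 X)
    (fun z => by have := h z; simp [f18] at this ⊢; linear_combination this) x
  simp only [f18, eval₂_sub, eval₂_add, eval₂_mul, eval₂_pow, eval₂_C, eval₂_X, eval₂_ofNat, eval₂_one,
    Int.coe_castRingHom] at hx
  have e2 : (k2 : ℚ) = g * k2' := by exact_mod_cast h2
  have e1 : (k1 : ℚ) = g * k1' := by exact_mod_cast h1
  have e0 : (k0 : ℚ) = g * k0' := by exact_mod_cast h0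
  rw [hl3, hl2, show (l1 : ℚ) = r1 + q1 * k0 + q0 * k1 by rw [hr1]; ring,
    show (l0 : ℚ) = r0 + q0 * k0 by rw [hr0]; ring, he, e2, e1, e0] at hx
  rw [e2, e1, e0]
  simp only [f18]
  field_simp
  linear_combination -hx

theorem odd_of_red2 {n : ℤ} (h : red2 (n : ℤ_[2]) = 1) : Odd n := by
  rw [map_intCast] at h
  rw [← Int.not_even_iff_odd]
  intro he
  rw [(ZMod.intCast_zmod_eq_zero_iff_dvd n 2).2 (by exact_mod_cast he.two_dvd)] at h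
  exact zero_ne_one h

theorem red2_of_odd {n : ℤ} (h : Odd n) : red2 (n : ℤ_[2]) = 1 := by
  obtain ⟨r, rfl⟩ := h
  push_cast
  rw [map_add, map_mul, red2_two, zero_mul, map_one, zero_add]

set_option maxHeartbeats 4000000 in
/-- **The descent**: a state gives one of lower level. -/
theorem descent_step {δ : ℕ} (hS : DescentState δ) : ∃ δ', δ' < δ ∧ DescentState δ' := by
  obtain ⟨u2, u1, u0, v1, v0, w4, w3, w2, w1, w0, m, D, P, hu2, hprim, hid, hδ, hm, hD, hP, hPv,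
    hu1, hu0⟩ := hS
  have hu2odd : Odd u2 := by obtain ⟨r, hr⟩ := hu2; exact ⟨2 * r, by omega⟩
  have hu2' : red2 (u2 : ℤ_[2]) = 1 := red2_of_odd hu2odd
  have hu20 : u2 ≠ 0 := by rintro rfl; simp at hu2odd
  have hu20' : (u2 : ℤ_[2]) ≠ 0 := Int.cast_ne_zero.2 hu20
  have hinj : Function.Injective incl := Subtype.coe_injective
  have hD2 : red2 D = 0 := red2_eq_zero.2 ((dvd_pow_pred (by omega)).trans hD.dvd)
  have hm2 : red2 m = 0 := red2_eq_zero.2 hm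
  -- the square root of `U θ`
  have hu1e : 2 ∣ u1 := by
    rw [← even_iff_two_dvd]
    by_contra hne
    have h := red2_of_odd (Int.not_even_iff_odd.1 hne)
    rw [hu1, map_mul, map_mul, map_neg, red2_two] at h
    simp at h
  obtain ⟨aL, a, haL, haC, ha⟩ := exists_sqrt hu2 hu1e hprim hid
  obtain ⟨hu11, hu01, hβ⟩ := (sqrt_red ha hu2' (by rw [hu1, map_mul, map_mul, map_neg, red2_two]; simp)).2
    (by rw [hu0, map_mul, map_sub, map_pow, hm2, hD2]; simp)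
  have hu21 : red4 (u2 : ℤ_[2]) = 1 := by
    obtain ⟨r, hr⟩ := hu2
    rw [show (u2 : ℤ_[2]) = 1 + 4 * (r : ℤ_[2]) by rw [← sub_eq_iff_eq_add']; exact_mod_cast hr,
      map_add, map_one, map_mul, map_ofNat, show (4 : ZMod 4) = 0 from rfl, zero_mul, add_zero]
  obtain ⟨β, rfl, hβr⟩ := hβ hu21
  -- halving
  have hdisc : u1 ^ 2 - 4 * u2 * u0 ≠ 0 := by
    intro h
    have := congrArg (fun n : ℤ => (n : ℤ_[2])) h
    simp only [Int.cast_sub, Int.cast_mul, Int.cast_pow, Int.cast_ofNat, Int.cast_zero, hu1, hu0]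
      at this
    exact hD.ne_zero (mul_left_cancel₀ (mul_ne_zero (show (4 : ℤ_[2]) ≠ 0 by norm_num)
      (pow_ne_zero 2 hu20')) (by linear_combination this))
  obtain ⟨k2, k1, k0, l3, l2, l1, l0, e, he0, hodd, hk0, heq, hI⟩ := exists_halving hdisc haL
  obtain ⟨c0, c1, c2, c3⟩ := cubic_congr (k2 := (k2 : ℤ_[2])) (k1 := (k1 : ℤ_[2]))
    (k0 := (k0 : ℤ_[2])) (l3 := (l3 : ℤ_[2])) (l2 := (l2 : ℤ_[2])) (l1 := (l1 : ℤ_[2]))
    (l0 := (l0 : ℤ_[2])) hβr (by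
      refine Cub.map_injective hinj ?_
      have h := congrArg toCub heq
      simp only [map_mul, map_add, map_pow, map_intCast, toCub_θL, ← haC] at h
      rw [map_mul, map_add (Cub.map incl) Cub.T, ← Cub.quad_eq]
      simp only [map_mul, map_add, map_pow, Cub.map_T, map_intCast]
        at h ⊢
      linear_combination h)
  have hk : ¬ (2 ∣ (k0 : ℤ_[2]) ∧ 2 ∣ (k1 : ℤ_[2]) ∧ 2 ∣ (k2 : ℤ_[2])) := by
    rintro ⟨a0, a1, a2⟩
    have h2 : ∀ n : ℤ, 2 ∣ (n : ℤ_[2]) → 2 ∣ n := fun n hn => by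
      by_contra hne
      exact red2_eq_one.1 (red2_of_odd (Int.not_even_iff_odd.1 fun he => hne he.two_dvd)) hn
    refine hodd ⟨h2 _ a2, h2 _ a1, h2 _ a0, h2 _ ?_, h2 _ ?_, h2 _ ?_, h2 _ c0⟩
    · simpa using dvd_add c3 a2
    · simpa using dvd_add c2 a1
    · simpa using dvd_add c1 a0
  obtain ⟨μ0, hμ0⟩ := c0
  obtain ⟨μ1, hμ1⟩ := c1
  obtain ⟨μ2, hμ2⟩ := c2
  obtain ⟨μ3, hμ3⟩ := c3
  have hIp := fun x => identity_int hI x
  -- `V` and `l` at the roots of `U`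
  have hi2 : (u1 : ℚ_[2]) = -2 * u2 * incl m := by
    rw [← incl_intCast, hu1]; simp only [map_mul, map_neg, map_ofNat, incl_intCast]
  have hi3 : (u0 : ℚ_[2]) = u2 * (incl m ^ 2 - incl D) := by
    rw [← incl_intCast, hu0]; simp only [map_mul, map_sub, map_pow, incl_intCast]
  obtain ⟨hV1, hV2⟩ := value_eqs (u := (u2 : ℚ_[2])) (m := incl m) (D := incl D)
    (v1 := (v1 : ℚ_[2])) (v0 := (v0 : ℚ_[2])) (w0 := (w0 : ℚ_[2])) (w1 := (w1 : ℚ_[2]))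
    (w2 := (w2 : ℚ_[2])) (w3 := (w3 : ℚ_[2])) (w4 := (w4 : ℚ_[2])) two_ne_zero (fun x => by
      have := identity_rat hid x
      simp only [Rat.cast_intCast, hi2, hi3] at this
      linear_combination this)
  rw [← hPv, ← map_fE] at hV1
  rw [← hPv, ← map_gO] at hV2
  obtain ⟨d₀, Q₀, rfl, hd₀, hQ₀, hQv, hPe, hPQ, hPQ2⟩ := state_eqs hδ hm hD hP hV1 hV2
  obtain ⟨A, hA⟩ : ∃ A : ℤ_[2], A = (l3 * m ^ 3 + l2 * m ^ 2 + l1 * m + l0)
      + (l2 + 3 * l3 * m) * (2 ^ δ * d₀) ^ 2 := ⟨_, rfl⟩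
  obtain ⟨B, hB⟩ : ∃ B : ℤ_[2], B = l1 + 2 * l2 * m + 3 * l3 * m ^ 2 + l3 * (2 ^ δ * d₀) ^ 2 :=
    ⟨_, rfl⟩
  obtain ⟨hAsq, hAB⟩ : A ^ 2 + (2 ^ δ * d₀) ^ 2 * B ^ 2 = e * fE m ((2 ^ δ * d₀) ^ 2) ∧
      A * B = e * gO m ((2 ^ δ * d₀) ^ 2) := by
    obtain ⟨r1, r2⟩ := remainder_eqs (u := (u2 : ℤ_[2])) (m := m) (D := (2 ^ δ * d₀) ^ 2)
      (e := (e : ℤ_[2])) (q2 := (k2 : ℤ_[2])) (q1 := k1 + 2 * k2 * m)
      (q0 := k2 * m ^ 2 + k1 * m + k0) (a := l3 * m ^ 3 + l2 * m ^ 2 + l1 * m + l0)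
      (b := l1 + 2 * l2 * m + 3 * l3 * m ^ 2) (c := l2 + 3 * l3 * m) (d := (l3 : ℤ_[2]))
      two_ne_zero (fun z => by
        have := hIp (m + z)
        rw [hu1, hu0] at this
        linear_combination this)
    rw [hA, hB]
    exact ⟨r1, r2⟩
  obtain ⟨E, hE⟩ := exists_sqrt_const hP hd₀ hQ₀ hPQ hPQ2 hAsq hAB
  rw [hE] at hAsq hAB
  have hE0 : E ≠ 0 := by rintro rfl; exact he0 (by exact_mod_cast (show (e : ℤ_[2]) = 0 by simpa using hE))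
  -- modulo `4`
  obtain ⟨γ, hγ⟩ := red4_eq_zero.1 (show red4 ((u2 : ℤ_[2]) - 1) = 0 by
    rw [map_sub, hu21, map_one, sub_self])
  obtain ⟨σ, hσ⟩ := red4_eq_zero.1 hu11
  obtain ⟨π, hπ⟩ := red4_eq_zero.1 hu01
  obtain ⟨E₁, rfl⟩ : 2 ∣ E := by
    rw [← red2_eq_zero]
    have h0 := hIp 0
    simp [f18, hE, hπ, hμ0] at h0
    have := congrArg red2 h0
    simp [map_ofNat, show (2 : ZMod 2) = 0 from rfl, show (4 : ZMod 2) = 0 from rfl] at this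
    rcases zmod2_cases (red2 E) with h | h
    · exact h
    · rw [h] at this; simp at this
  have hhalf := half_step (g := γ) (s := σ) (p := π) (E := E₁ ^ 2) (m0 := μ0) (m1 := μ1) (m2 := μ2)
    (m3 := μ3) hk (fun x => mul_left_cancel₀ (show (4 : ℤ_[2]) ≠ 0 by norm_num) (by
      have := hIp x
      rw [hE, hμ0, show (l3 : ℤ_[2]) = k2 + 2 * μ3 by linear_combination hμ3,
        show (l2 : ℤ_[2]) = k1 + 2 * μ2 by linear_combination hμ2,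
        show (l1 : ℤ_[2]) = k0 + 2 * μ1 by linear_combination hμ1,
        show (u2 : ℤ_[2]) = 1 + 4 * γ by linear_combination hγ, hσ, hπ] at this
      linear_combination this))
  rw [map_pow] at hhalf
  obtain ⟨a1, ha1⟩ := hm
  obtain ⟨D₁, hD₁⟩ : ∃ D₁ : ℤ_[2], D₁ = 2 ^ (2 * (δ - 1)) * d₀ ^ 2 := ⟨_, rfl⟩
  have hD4 : (2 ^ δ * d₀) ^ 2 = 4 * D₁ := by
    obtain ⟨r, rfl⟩ : ∃ r, δ = r + 1 := ⟨δ - 1, by omega⟩
    rw [hD₁, Nat.add_sub_cancel]; ring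
  have hσr : red2 σ = red2 a1 := by
    have : σ = -(u2 * a1) := mul_left_cancel₀ (show (4 : ℤ_[2]) ≠ 0 by norm_num)
      (by linear_combination hu1 - hσ - 2 * u2 * ha1)
    rw [this, map_neg, map_mul, hu2', one_mul, CharTwo.neg_eq]
  have hπr : red2 π = red2 a1 + red2 D₁ := by
    have : π = u2 * (a1 ^ 2 - D₁) := mul_left_cancel₀ (show (4 : ℤ_[2]) ≠ 0 by norm_num)
      (by linear_combination hu0 - hπ + u2 * (m + 2 * a1) * ha1 - u2 * hD4)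
    rw [this, map_mul, map_sub, map_pow, hu2', one_mul, CharTwo.sub_eq_add]
    rcases zmod2_cases (red2 a1) with h | h <;> rw [h] <;> simp
  have hk0' : ∀ h2 : red2 (k2 : ℤ_[2]) = 1, k2 ≠ 0 := fun h2 e => by
    rw [e] at h2; simp at h2
  rcases hhalf with ⟨hg, hps, hEr⟩ | ⟨hg, hps, hEr, hk2r, hk1r, hk0r, hμr⟩
  · -- the main branch
    have hδ2 : 2 ≤ δ := by
      by_contra h
      rw [hπr, hσr, hD₁, show δ = 1 by omega] at hps
      simp [hd₀] at hps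
    have hE1 : red2 E₁ = 0 := eq_zero_of_pow_eq_zero hEr
    obtain ⟨ε, hεE⟩ := exists_exact hE0
    have hε2 : 2 ≤ ε := by
      obtain ⟨z, rfl⟩ := red2_eq_zero.1 hE1
      exact hεE.le_of_dvd ⟨z, by ring⟩
    have h8 : 8 ∣ (u2 : ℤ_[2]) - 1 := by
      obtain ⟨z, rfl⟩ := red2_eq_zero.1 hg
      exact ⟨z, by linear_combination hγ⟩
    obtain ⟨hk2r, hk1r, hk0r⟩ := order_step (μ0 := μ0) (μ1 := μ1) (μ2 := μ2) (μ3 := μ3)
      (ε := (e : ℤ_[2])) h8 ⟨a1, ha1⟩ hδ2 hD hε2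
      (by rw [hE, mul_comm 2 ε]; exact hεE.pow 2) hk (fun x => by
        have := hIp x
        rw [hμ0, show (l3 : ℤ_[2]) = k2 + 2 * μ3 by linear_combination hμ3,
          show (l2 : ℤ_[2]) = k1 + 2 * μ2 by linear_combination hμ2,
          show (l1 : ℤ_[2]) = k0 + 2 * μ1 by linear_combination hμ1, hu1, hu0] at this
        linear_combination this)
    obtain ⟨w, hw⟩ := (isUnit_of_red2 hk2r).exists_right_inv
    obtain ⟨h, hh⟩ := red2_eq_zero.1 hk1r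
    obtain ⟨m', hm'⟩ : ∃ m' : ℤ_[2], m' = -(h * w) := ⟨_, rfl⟩
    obtain ⟨D', hD'⟩ : ∃ D' : ℤ_[2], D' = m' ^ 2 - k0 * w := ⟨_, rfl⟩
    have hk1m : (k1 : ℤ_[2]) = -2 * k2 * m' := by rw [hm']; linear_combination hh - 2 * h * hw
    have hk0m : (k0 : ℤ_[2]) = k2 * (m' ^ 2 - D') := by rw [hD']; linear_combination -k0 * hw
    obtain ⟨a', ha'⟩ : ∃ x : ℤ_[2], x = l3 * m' ^ 3 + l2 * m' ^ 2 + l1 * m' + l0 := ⟨_, rfl⟩
    obtain ⟨b', hb'⟩ : ∃ x : ℤ_[2], x = l1 + 2 * l2 * m' + 3 * l3 * m' ^ 2 := ⟨_, rfl⟩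
    obtain ⟨c', hc'⟩ : ∃ x : ℤ_[2], x = l2 + 3 * l3 * m' := ⟨_, rfl⟩
    obtain ⟨t1, t2, t3, t4, t5, t6, t7⟩ := taylor_eqs (ε := (e : ℤ_[2])) (m := m') (D := D')
      (q := (k2 : ℤ_[2])) (a := a') (b := b') (c := c') (e := (l3 : ℤ_[2]))
      (v2 := (u2 : ℤ_[2])) (v1 := -2 * u2 * (m - m'))
      (v0 := u2 * ((m - m') ^ 2 - (2 ^ δ * d₀) ^ 2)) two_ne_zero (fun z => by
        have := hIp (m' + z)
        rw [hk1m, hk0m, hu1, hu0] at this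
        rw [ha', hb', hc']
        linear_combination this)
    rw [hE] at t1 t2 t3 t4 t5 t6 t7
    have hl3 : red2 (l3 : ℤ_[2]) = 1 := by
      rw [show (l3 : ℤ_[2]) = k2 + 2 * μ3 by linear_combination hμ3, map_add, map_mul, red2_two,
        zero_mul, add_zero, hk2r]
    have hpar : red2 m' = red2 D' := by
      rw [hD', map_sub, map_pow, map_mul, hk0r]
      rcases zmod2_cases (red2 m') with h | h <;> rw [h] <;> simp
    obtain ⟨δ', hδ', hεδ, hm'0, hD'e, hA'e, hB'e⟩ := next_core (by omega) hl3 hεE (Or.inl hpar)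
      (fun h1 h0 => absurd (hpar ▸ h1) (by rw [h0]; exact zero_ne_one)) t1 t2 t3 t4
    subst hεδ
    obtain ⟨hDU, hdvd⟩ := U_core (w := m - m') (DU := (2 ^ δ * d₀) ^ 2)
      (v2 := u2 * (k2 : ℤ_[2]) ^ 2) hδ' hl3 hD'e
      (by rw [show 4 * δ' + 1 = 3 * δ' + 1 + δ' by ring]; exact hA'e) hB'e hεE t4 t5
      (by linear_combination t6) (by linear_combination t7)
    have hδeq : δ = δ' + 1 := by have := hD.unique hDU; omega
    have hA' : a' + b' * (m - m') + c' * (m - m') ^ 2 + l3 * (m - m') ^ 3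
        + (c' + 3 * l3 * (m - m')) * (2 ^ δ * d₀) ^ 2 = A := by
      rw [ha', hb', hc', hA]; ring
    rw [hA'] at hdvd
    obtain ⟨Er, s, hs, hEr0, hErE, heEr⟩ := rational_sqrt hu20 hd₀ hQ₀ hPe.ne_zero hE0 hQv hu1 hu0
      hPQ hPQ2 hAsq hAB hdvd hB hE
    obtain ⟨g, n2, n1, n0, hgodd, e2, e1, e0, hn2, hnprim⟩ := normalise (k1 := k1) (k0 := k0)
      (odd_of_red2 hk2r)
    obtain ⟨v1', v0', x4, x3, x2, x1, x0, hv1', hv0', hid'⟩ :=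
      next_identity (hk0' hk2r) hEr0 heEr e2 e1 e0 hI
    -- `V' m' = (a' + c' D') / E`
    obtain ⟨α, hα⟩ : 2 * E₁ ∣ a' + c' * D' := by
      obtain ⟨u, hu, hEu⟩ := hεE
      obtain ⟨u', hu'⟩ := (isUnit_of_red2 hu).exists_right_inv
      obtain ⟨z, hz⟩ := (pow_dvd_pow _ (Nat.le_add_right (3 * δ' + 1) δ')).trans hA'e.dvd
      exact ⟨z * u', by rw [hEu, hz]; linear_combination -(2 ^ (3 * δ' + 1) * z) * hu'⟩
    have hαe : 2 ∣ α := by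
      by_contra hne
      have := (hεE.mul (exact_zero_iff.2 (red2_eq_one.2 hne))).unique (hα ▸ hA'e)
      omega
    have hgg : (g : ℤ_[2]) ≠ 0 := Int.cast_ne_zero.2 (by rintro rfl; simp at hgodd)
    refine ⟨δ', by omega, n2, n1, n0, v1', v0', x4, x3, x2, x1, x0, m', D', s * α, hn2, hnprim,
      hid', hδ', red2_eq_zero.1 hm'0, hD'e, dvd_mul_of_dvd_right hαe _, ?_, ?_, ?_⟩
    · have hk2ne : (k2 : ℚ_[2]) ≠ 0 := Int.cast_ne_zero.2 (hk0' hk2r)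
      have hk1i : (k1 : ℚ_[2]) = -2 * k2 * incl m' := by
        rw [← incl_intCast, hk1m]; simp only [map_mul, map_neg, map_ofNat, incl_intCast]
      have hk0i : (k0 : ℚ_[2]) = k2 * (incl m' ^ 2 - incl D') := by
        rw [← incl_intCast, hk0m]; simp only [map_mul, map_sub, map_pow, incl_intCast]
      have hA'i : incl (a' + c' * D') = (l3 : ℚ_[2]) * incl m' ^ 3 + l2 * incl m' ^ 2
          + l1 * incl m' + l0 + (l2 + 3 * l3 * incl m') * incl D' := by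
        rw [ha', hc']; simp only [map_add, map_mul, map_pow, map_ofNat, incl_intCast]
      have hEne : (Er : ℚ_[2]) ≠ 0 := Rat.cast_ne_zero.2 hEr0
      have hkey : incl (s * α) * (Er : ℚ_[2]) = incl (a' + c' * D') := by
        rw [hErE, ← map_mul, hα]; congr 1; linear_combination α * (2 * E₁) * hs
      refine mul_right_cancel₀ hEne (hkey.trans ?_)
      rw [hA'i, hv1', hv0']
      push_cast
      rw [hk1i, hk0i]
      field_simp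
      ring
    · refine mul_left_cancel₀ hgg ?_
      have e1' : (k1 : ℤ_[2]) = g * n1 := by exact_mod_cast e1
      have e2' : (k2 : ℤ_[2]) = g * n2 := by exact_mod_cast e2
      linear_combination hk1m - e1' - 2 * m' * e2'
    · refine mul_left_cancel₀ hgg ?_
      have e0' : (k0 : ℤ_[2]) = g * n0 := by exact_mod_cast e0
      have e2' : (k2 : ℤ_[2]) = g * n2 := by exact_mod_cast e2
      linear_combination hk0m - e0' + (m' ^ 2 - D') * e2'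
  · -- `k ≡ x² + 1`, impossible
    exfalso
    have hE1 : red2 E₁ = 1 := by
      rcases zmod2_cases (red2 E₁) with h | h
      · rw [h] at hEr; simp at hEr
      · exact h
    obtain ⟨z1, hz1⟩ := (isUnit_of_red2 hE1).exists_right_inv
    obtain ⟨s1, hs1⟩ : (2 : ℤ_[2]) ∣ μ0 + a1 * k0 := red2_eq_zero.1 (by
      rw [map_add, map_mul, hk0r, mul_one, hμr, hσr, CharTwo.add_self_eq_zero])
    have hdvd : 2 * (2 * E₁) ∣ A := by
      refine ⟨z1 * (2 * a1 ^ 3 * k2 + a1 ^ 2 * k1 + s1 + a1 * μ1 + 2 * a1 ^ 2 * μ2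
        + 4 * a1 ^ 3 * μ3 + (l2 + 3 * l3 * m) * D₁), ?_⟩
      rw [hA, hD4, hμ0, show (l3 : ℤ_[2]) = k2 + 2 * μ3 by linear_combination hμ3,
        show (l2 : ℤ_[2]) = k1 + 2 * μ2 by linear_combination hμ2,
        show (l1 : ℤ_[2]) = k0 + 2 * μ1 by linear_combination hμ1, ha1]
      linear_combination 2 * hs1 - 4 * (2 * a1 ^ 3 * k2 + a1 ^ 2 * k1 + s1 + a1 * μ1
        + 2 * a1 ^ 2 * μ2 + 4 * a1 ^ 3 * μ3
        + (k1 + 2 * μ2 + 3 * (k2 + 2 * μ3) * (2 * a1)) * D₁) * hz1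
    obtain ⟨Er, s, -, hEr0, -, heEr⟩ := rational_sqrt hu20 hd₀ hQ₀ hPe.ne_zero hE0 hQv hu1 hu0
      hPQ hPQ2 hAsq hAB hdvd hB hE
    obtain ⟨g, n2, n1, n0, hgodd, e2, e1, e0, hn2, hnprim⟩ := normalise (k1 := k1) (k0 := k0)
      (odd_of_red2 hk2r)
    obtain ⟨v1', v0', x4, x3, x2, x1, x0, -, -, hid'⟩ :=
      next_identity (hk0' hk2r) hEr0 heEr e2 e1 e0 hI
    have hn2odd : Odd n2 := (Int.odd_mul.1 (e2 ▸ odd_of_red2 hk2r)).2
    have hn1e : 2 ∣ n1 := by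
      rw [← even_iff_two_dvd]
      by_contra hne
      have hodd' : Odd (g * n1) := hgodd.mul (Int.not_even_iff_odd.1 hne)
      have h := red2_of_odd hodd'
      rw [← e1, hk1r] at h
      exact zero_ne_one h
    obtain ⟨-, a', -, -, ha'⟩ := exists_sqrt hn2 hn1e hnprim hid'
    have hgr : red2 (g : ℤ_[2]) = 1 := red2_of_odd hgodd
    have e0' : (k0 : ℤ_[2]) = g * n0 := by exact_mod_cast e0
    have e1' : (k1 : ℤ_[2]) = g * n1 := by exact_mod_cast e1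
    have e2' : (k2 : ℤ_[2]) = g * n2 := by exact_mod_cast e2
    obtain ⟨hn1, hn0⟩ := (sqrt_red ha' (red2_of_odd hn2odd)
      (by rwa [e1', map_mul, hgr, one_mul] at hk1r)).1 (by rwa [e0', map_mul, hgr, one_mul] at hk0r)
    obtain ⟨j, hj⟩ := red4_eq_zero.1 (show red4 ((n1 : ℤ_[2]) - 2) = 0 by
      rw [map_sub, hn1, map_ofNat, sub_self])
    obtain ⟨i, hi⟩ := red4_eq_zero.1 (show red4 ((n0 : ℤ_[2]) - n2) = 0 by
      rw [map_sub, hn0, sub_self])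
    obtain ⟨w, hw⟩ := (isUnit_of_red2 (red2_of_odd hn2odd)).exists_right_inv
    obtain ⟨m', hm'⟩ : ∃ m' : ℤ_[2], m' = -((1 + 2 * j) * w) := ⟨_, rfl⟩
    obtain ⟨D', hD'⟩ : ∃ D' : ℤ_[2], D' = m' ^ 2 - n0 * w := ⟨_, rfl⟩
    have hw1 : red2 w = 1 := by
      have := congrArg red2 hw
      rwa [map_mul, red2_of_odd hn2odd, one_mul, map_one] at this
    have hm'1 : red2 m' = 1 := by
      rw [hm', map_neg, map_mul, map_add, map_mul, red2_two, hw1]; simp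
    have hn0r : red2 (n0 : ℤ_[2]) = 1 := by rwa [e0', map_mul, hgr, one_mul] at hk0r
    have hD'0 : red2 D' = 0 := by
      rw [hD', map_sub, map_pow, map_mul, hm'1, hn0r, hw1]; decide
    have hk1m : (k1 : ℤ_[2]) = -2 * k2 * m' := by
      rw [hm', e1', e2']; linear_combination (g : ℤ_[2]) * hj - 2 * g * (1 + 2 * j) * hw
    have hk0m : (k0 : ℤ_[2]) = k2 * (m' ^ 2 - D') := by
      rw [hD', e0', e2']; linear_combination -(g : ℤ_[2]) * n0 * hw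
    obtain ⟨t1, t2, t3, t4, -, -, -⟩ := taylor_eqs (ε := (e : ℤ_[2])) (m := m') (D := D')
      (q := (k2 : ℤ_[2])) (a := l3 * m' ^ 3 + l2 * m' ^ 2 + l1 * m' + l0)
      (b := l1 + 2 * l2 * m' + 3 * l3 * m' ^ 2) (c := l2 + 3 * l3 * m') (e := (l3 : ℤ_[2]))
      (v2 := (u2 : ℤ_[2])) (v1 := -2 * u2 * (m - m'))
      (v0 := u2 * ((m - m') ^ 2 - (2 ^ δ * d₀) ^ 2)) two_ne_zero (fun z => by
        have := hIp (m' + z)
        rw [hk1m, hk0m, hu1, hu0] at this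
        linear_combination this)
    rw [hE] at t1 t2 t3 t4
    have hl3 : red2 (l3 : ℤ_[2]) = 1 := by
      rw [show (l3 : ℤ_[2]) = k2 + 2 * μ3 by linear_combination hμ3, map_add, map_mul, red2_two,
        zero_mul, add_zero, hk2r]
    obtain ⟨δ', -, -, hm'0, -⟩ := next_core le_rfl hl3
      (show Exact 1 (2 * E₁) from ⟨E₁, hE1, by ring⟩) (Or.inr hD'0) (fun _ _ => rfl) t1 t2 t3 t4
    rw [hm'1] at hm'0
    exact one_ne_zero hm'0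

theorem not_descentState (δ : ℕ) : ¬ DescentState δ := by
  induction δ using Nat.strong_induction_on with
  | _ δ ih => exact fun h => let ⟨δ', hlt, h'⟩ := descent_step h; ih δ' hlt h'

end FA.Torsion.Eighteen

end
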