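import Fermat.Agent.Torsion.Eighteen.FieldPlaces
import Fermat.Agent.Torsion.Eighteen.FieldDiscr

/-!
# The sextic field has class number one

Minkowski's bound is less than `7`.  The sextic has no root in a field with `2`, `4` or `5`
elements, and the only prime of norm `3` is generated by `θ + √-2`.
-/

set_option autoImplicit false

noncomputable section

namespace FA.Torsion.Eighteen

open NumberField Module

theorem minkowskiBound_L_lt :
    (4 / Real.pi) ^ InfinitePlace.nrComplexPlaces L *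
      ((Nat.factorial (finrank ℚ L)) / (finrank ℚ L : ℝ) ^ (finrank ℚ L) * √|(discr L : ℝ)|) < 7 := by
  rw [nrComplexPlaces_L, finrank_L, show (Nat.factorial 6) = 720 from rfl]
  have hd : (|(discr L : ℝ)|) ≤ 204 ^ 2 := by
    rw [← Int.cast_abs]
    refine le_trans (Int.cast_le.2 abs_discr_L_le) ?_
    norm_num
  have hs : √|(discr L : ℝ)| ≤ 204 := by
    rw [← Real.sqrt_sq (show (0 : ℝ) ≤ 204 by norm_num)]
    exact Real.sqrt_le_sqrt hd
  have hpi : 4 / Real.pi < 13 / 10 := by
    rw [div_lt_div_iff₀ Real.pi_pos (by norm_num)]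
    nlinarith [Real.pi_gt_d2]
  have h3 : (4 / Real.pi) ^ 3 ≤ (13 / 10) ^ 3 := pow_le_pow_left₀ (by positivity) hpi.le 3
  calc _ ≤ (13 / 10 : ℝ) ^ 3 * (720 / 6 ^ 6 * 204) := by
        push_cast
        gcongr
    _ < 7 := by norm_num

theorem f18_roots_zmod :
    (∀ y : ZMod 3, f18 y = 0 → y = 1) ∧ ∀ y : ZMod 5, f18 y ≠ 0 := by
  refine ⟨?_, ?_⟩ <;> decide

/-- The sextic has no root in a field with `2` or `4` elements. -/
theorem f18_ne_zero_of_card {F : Type*} [Field F] [Fintype F]
    (h : Fintype.card F = 2 ∨ Fintype.card F = 4) (x : F) : f18 x ≠ 0 := by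
  have h2 : (2 : F) = 0 := by
    have hc := FiniteField.cast_card_eq_zero F
    rcases h with h | h <;> rw [h] at hc <;> push_cast at hc
    · exact hc
    · exact mul_self_eq_zero.1 (by linear_combination hc)
  have hx4 : x ^ 4 = x := by
    have hp := FiniteField.pow_card x
    rcases h with h | h <;> rw [h] at hp
    · linear_combination (x ^ 2 + x + 1) * hp
    · exact hp
  intro hf
  simp only [f18] at hf
  have e : x ^ 3 + x ^ 2 + 1 = 0 := by
    linear_combination hf - x ^ 2 * hx4 - (2 * x ^ 5 + 5 * x ^ 4 + 5 * x ^ 3 + 2 * x ^ 2 + x) * h2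
  have hx0 : x ≠ 0 := by rintro rfl; simp at e
  have hx3 : x ^ 3 = 1 := mul_left_cancel₀ hx0 (by linear_combination hx4)
  exact hx0 (eq_zero_of_pow_eq_zero (show x ^ 2 = 0 by linear_combination e - hx3 - h2))

/-- The root as an algebraic integer. -/
def tO : 𝓞 L := ⟨θL, isIntegral_θL⟩

/-- The square root of `-2` as an algebraic integer. -/
def sO : 𝓞 L := ⟨sL, isIntegral_sL⟩

/-- The generator `θ + √-2` of the prime over `3`. -/
def piO : 𝓞 L := tO + sO

/-- The coordinates of `2 (θ + √-2) θ ^ j`. -/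
def piTable : Fin 6 → Fin 6 → ℤ :=
  ![![-3, -6, -13, -17, -7, -2], ![2, 1, 4, 7, 3, 1], ![-1, 0, -4, -6, -3, -1],
    ![1, 1, 5, 6, 4, 1], ![-1, -1, -4, -5, -4, 0], ![0, -1, -1, -4, -5, -4]]

theorem two_pi_mul_pow (j : Fin 6) :
    (2 * (θL + sL)) * θL ^ (j : ℕ) = ∑ i : Fin 6, (piTable j i : ℚ) • θL ^ (i : ℕ) := by
  have h := f18_θL
  simp only [f18] at h
  simp only [Fin.sum_univ_succ, Algebra.smul_def]
  fin_cases j <;> simp [piTable, sL] <;> grind

theorem norm_two_pi : Algebra.norm ℚ (2 * (θL + sL)) = 192 := by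
  have hm : Algebra.leftMulMatrix powBasisL (2 * (θL + sL)) =
      ((Matrix.of piTable).transpose).map (Int.castRingHom ℚ) := by
    ext i j
    rw [Algebra.leftMulMatrix_eq_repr_mul, powBasisL_apply, two_pi_mul_pow]
    simp_rw [← powBasisL_apply]
    rw [Basis.repr_sum_self]
    simp
  have hdet : ((Matrix.of piTable).transpose).det = 192 := by decide +kernel
  rw [Algebra.norm_eq_matrix_det powBasisL, hm, ← RingHom.mapMatrix_apply, ← RingHom.map_det, hdet]
  simp

theorem absNorm_span_piO : Ideal.absNorm (Ideal.span {piO}) = 3 := by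
  have hc : (piO : L) = θL + sL := by simp [piO, tO, sO]
  have h2 : Algebra.norm ℚ (2 : L) = 64 := by
    rw [show (2 : L) = algebraMap ℚ L 2 from (map_ofNat _ _).symm, Algebra.norm_algebraMap,
      finrank_L]
    norm_num
  have hn : (Algebra.norm ℤ piO : ℚ) = 3 := by
    rw [Algebra.coe_norm_int]
    have h := norm_two_pi
    rw [map_mul, h2, ← hc] at h
    linear_combination h / 64
  rw [Ideal.absNorm_span_singleton, show Algebra.norm ℤ piO = 3 by exact_mod_cast hn]
  rfl

theorem isPrincipal_of_absNorm_lt {P : Ideal (𝓞 L)} (hP : P.IsPrime) (h0 : P ≠ ⊥)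
    (hlt : Ideal.absNorm P < 7) : P.IsPrincipal := by
  have h1 : Ideal.absNorm P ≠ 1 := fun h => hP.ne_top (Ideal.absNorm_eq_one_iff.1 h)
  have hn : Ideal.absNorm P ≠ 0 := by rwa [Ne, Ideal.absNorm_eq_zero_iff]
  have : Finite (𝓞 L ⧸ P) := (Ideal.absNorm_ne_zero_iff P).1 hn
  let : Fintype (𝓞 L ⧸ P) := Fintype.ofFinite _
  have : P.IsMaximal := hP.isMaximal h0
  let : Field (𝓞 L ⧸ P) := Ideal.Quotient.field P
  have hcard : Fintype.card (𝓞 L ⧸ P) = Ideal.absNorm P := by
    rw [Ideal.absNorm_apply, Submodule.cardQuot_apply, Nat.card_eq_fintype_card]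
  have ht : f18 tO = 0 := RingOfIntegers.coe_injective (by
    rw [map_f18, map_zero]; exact f18_θL)
  have ht' : f18 (Ideal.Quotient.mk P tO) = 0 := by rw [← map_f18, ht, map_zero]
  have h6 : Ideal.absNorm P ≠ 6 := fun h => by
    have := Fintype.isPrimePow_card_of_field (α := 𝓞 L ⧸ P)
    rw [hcard.trans h, isPrimePow_nat_iff_bounded] at this
    revert this
    decide
  obtain h | h | h | h : Ideal.absNorm P = 2 ∨ Ideal.absNorm P = 4 ∨ Ideal.absNorm P = 3 ∨
      Ideal.absNorm P = 5 := by omega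
  · exact absurd ht' (f18_ne_zero_of_card (Or.inl (hcard.trans h)) _)
  · exact absurd ht' (f18_ne_zero_of_card (Or.inr (hcard.trans h)) _)
  · let e := (ZMod.ringEquivOfPrime (𝓞 L ⧸ P) Nat.prime_three (hcard.trans h)).symm.toRingHom
    have he1 : e (Ideal.Quotient.mk P tO) = 1 :=
      f18_roots_zmod.1 _ (by rw [← map_f18, ht', map_zero])
    have hs : 2 * sO = -(3 + 8 * tO + 13 * tO ^ 2 + 17 * tO ^ 3 + 7 * tO ^ 4 + 2 * tO ^ 5) :=
      RingOfIntegers.ext (by
        simp only [map_mul, map_add, map_neg, map_pow, map_ofNat]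
        show 2 * sL = _
        simp only [sL, show (tO : L) = θL from rfl]
        ring)
    have he2 := congrArg (fun z => e (Ideal.Quotient.mk P z)) hs
    simp only [map_mul, map_add, map_neg, map_pow, map_ofNat, he1] at he2
    have hsum : e (Ideal.Quotient.mk P piO) = 0 := by
      have key : ∀ z : ZMod 3, 2 * z = -(3 + 8 * 1 + 13 * 1 ^ 2 + 17 * 1 ^ 3 + 7 * 1 ^ 4 + 2 * 1 ^ 5) →
          1 + z = 0 := by decide
      rw [piO, map_add, map_add, he1]
      exact key _ he2
    have hmem : piO ∈ P := Ideal.Quotient.eq_zero_iff_mem.1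
      ((ZMod.ringEquivOfPrime (𝓞 L ⧸ P) Nat.prime_three (hcard.trans h)).symm.injective
        (hsum.trans (map_zero _).symm))
    obtain ⟨J, hJ⟩ := Ideal.dvd_iff_le.2 ((Ideal.span_singleton_le_iff_mem P).2 hmem)
    have hJn := congrArg Ideal.absNorm hJ
    rw [map_mul, absNorm_span_piO, h] at hJn
    rw [Ideal.absNorm_eq_one_iff.1 (show Ideal.absNorm J = 1 by omega), Ideal.mul_top] at hJ
    exact ⟨piO, by rw [Ideal.submodule_span_eq]; exact hJ.symm⟩
  · let e := (ZMod.ringEquivOfPrime (𝓞 L ⧸ P) Nat.prime_five (hcard.trans h)).symm.toRingHom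
    exact absurd (show f18 (e (Ideal.Quotient.mk P tO)) = 0 by rw [← map_f18, ht', map_zero])
      (f18_roots_zmod.2 _)

theorem isPrincipalIdealRing_L : IsPrincipalIdealRing (𝓞 L) := by
  refine RingOfIntegers.isPrincipalIdealRing_of_isPrincipal_of_norm_le_of_isPrime fun I hI hN => ?_
  exact isPrincipal_of_absNorm_lt hI (nonZeroDivisors.coe_ne_zero I)
    (by exact_mod_cast hN.trans_lt minkowskiBound_L_lt)

end FA.Torsion.Eighteen

end
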