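import Fermat.Agent.Torsion.Eighteen.Defs

/-!
# Parity of valuations: the local lemmas

Let `F` be a monic sextic with root `θ`, and suppose that the monic quadratic `k = x² + a x + b`
divides `F - (s x + t)²`.  Where `F'(θ)` is a unit, or `θ` is congruent to an integer `r` with
`F(r)` divisible by 3 exactly once, the valuation of `k(θ)` is a square.
-/

set_option autoImplicit false
set_option linter.unusedSectionVars false

noncomputable section

namespace FA.Torsion.Eighteen.Parity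

/-- A monic sextic with integer coefficients. -/
structure Sextic where
  /-- constant coefficient -/
  c0 : ℤ
  /-- coefficient of `x` -/
  c1 : ℤ
  /-- coefficient of `x²` -/
  c2 : ℤ
  /-- coefficient of `x³` -/
  c3 : ℤ
  /-- coefficient of `x⁴` -/
  c4 : ℤ
  /-- coefficient of `x⁵` -/
  c5 : ℤ

namespace Sextic

variable (F : Sextic) {R : Type*} [CommRing R]

/-- The value of the sextic. -/
def ev (x : R) : R :=
  x ^ 6 + F.c5 * x ^ 5 + F.c4 * x ^ 4 + F.c3 * x ^ 3 + F.c2 * x ^ 2 + F.c1 * x + F.c0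

/-- The value of the derivative. -/
def dv (x : R) : R :=
  6 * x ^ 5 + 5 * F.c5 * x ^ 4 + 4 * F.c4 * x ^ 3 + 3 * F.c3 * x ^ 2 + 2 * F.c2 * x + F.c1

/-- Coefficient of `x³` in the quotient by `x² + a x + b`. -/
def q3 (a : R) : R := F.c5 - a
/-- Coefficient of `x²` in the quotient by `x² + a x + b`. -/
def q2 (a b : R) : R := F.c4 - a * F.q3 a - b
/-- Coefficient of `x` in the quotient by `x² + a x + b`. -/
def q1 (a b : R) : R := F.c3 - a * F.q2 a b - b * F.q3 a
/-- Constant coefficient of the quotient by `x² + a x + b`. -/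
def q0 (a b : R) : R := F.c2 - a * F.q1 a b - b * F.q2 a b
/-- Coefficient of `x` in the remainder by `x² + a x + b`. -/
def r1 (a b : R) : R := F.c1 - a * F.q0 a b - b * F.q1 a b
/-- Constant coefficient of the remainder by `x² + a x + b`. -/
def r0 (a b : R) : R := F.c0 - b * F.q0 a b
/-- The quotient by `x² + a x + b`. -/
def quo (a b x : R) : R :=
  x ^ 4 + F.q3 a * x ^ 3 + F.q2 a b * x ^ 2 + F.q1 a b * x + F.q0 a b
/-- The derivative of the quotient. -/
def dquo (a b x : R) : R :=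
  4 * x ^ 3 + 3 * F.q3 a * x ^ 2 + 2 * F.q2 a b * x + F.q1 a b

theorem ev_eq (a b x : R) :
    F.ev x = (x ^ 2 + a * x + b) * F.quo a b x + (F.r1 a b * x + F.r0 a b) := by
  simp only [ev, quo, r1, r0, q0, q1, q2, q3]; ring

theorem dv_eq (a b x : R) :
    F.dv x = (2 * x + a) * F.quo a b x + (x ^ 2 + a * x + b) * F.dquo a b x + F.r1 a b := by
  simp only [dv, quo, dquo, r1, q0, q1, q2, q3]; ring

variable {S : Type*} [CommRing S] (φ : R →+* S)

theorem map_ev (x : R) : φ (F.ev x) = F.ev (φ x) := by simp [ev]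

theorem map_quo (a b x : R) : φ (F.quo a b x) = F.quo (φ a) (φ b) (φ x) := by
  simp [quo, q0, q1, q2, q3]

theorem map_dquo (a b x : R) : φ (F.dquo a b x) = F.dquo (φ a) (φ b) (φ x) := by
  simp [dquo, q1, q2, q3, map_ofNat]

theorem map_r0 (a b : R) : φ (F.r0 a b) = F.r0 (φ a) (φ b) := by
  simp [r0, q0, q1, q2, q3]

theorem map_r1 (a b : R) : φ (F.r1 a b) = F.r1 (φ a) (φ b) := by
  simp [r1, q0, q1, q2, q3]

end Sextic

variable {L : Type*} [Field L] [CharZero L] {Γ : Type*} [LinearOrderedCommGroupWithZero Γ]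
  (v : Valuation L Γ)

/-- The valuation is that of a square. -/
def IsSq (z : L) : Prop := ∃ w : L, v z = v w ^ 2

variable {v}

theorem isSq_one {z : L} (h : v z = 1) : IsSq v z := ⟨1, by rw [h, map_one, one_pow]⟩

theorem IsSq.mul {z u : L} (h : IsSq v z) (hu : v u = 1) : IsSq v (u * z) := by
  obtain ⟨w, hw⟩ := h
  exact ⟨w, by rw [map_mul, hu, one_mul, hw]⟩

theorem le_one_intCast (n : ℤ) : v (n : L) ≤ 1 :=
  intCast_mem v.integer n

theorem le_one_natCast (n : ℕ) : v (n : L) ≤ 1 :=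
  natCast_mem v.integer n

theorem le_one_two : v (2 : L) ≤ 1 := by simpa using le_one_natCast (v := v) 2

theorem le_one_add {x y : L} (hx : v x ≤ 1) (hy : v y ≤ 1) : v (x + y) ≤ 1 :=
  v.map_add_le hx hy

theorem le_one_mul {x y : L} (hx : v x ≤ 1) (hy : v y ≤ 1) : v (x * y) ≤ 1 := by
  rw [map_mul]; exact mul_le_one' hx hy

theorem small_mul {x y : L} (hx : v x ≤ 1) (hy : v y < 1) : v (x * y) < 1 := by
  rw [map_mul]; exact mul_lt_one_of_nonneg_of_lt_one_right hx zero_le hy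

theorem small_of_sq {x : L} (hx : v (x ^ 2) < 1) : v x < 1 := by
  rw [map_pow] at hx
  exact lt_of_not_ge fun h => (one_le_pow_of_one_le' h 2).not_gt hx

theorem small_of_cube {x : L} (hx : v (x ^ 3) < 1) : v x < 1 := by
  rw [map_pow] at hx
  exact lt_of_not_ge fun h => (one_le_pow_of_one_le' h 3).not_gt hx

theorem le_one_of_sq {x : L} (hx : v (x ^ 2) ≤ 1) : v x ≤ 1 := by
  rw [map_pow] at hx
  exact le_of_not_gt fun h => (one_lt_pow₀ h two_ne_zero).not_ge hx

theorem quo_le_one (F : Sextic) {a b x : L} (ha : v a ≤ 1) (hb : v b ≤ 1) (hx : v x ≤ 1) :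
    v (F.quo a b x) ≤ 1 := by
  have h := F.map_quo v.integer.subtype ⟨a, ha⟩ ⟨b, hb⟩ ⟨x, hx⟩
  rw [show F.quo a b x = _ from h.symm]
  exact (F.quo (⟨a, ha⟩ : v.integer) ⟨b, hb⟩ ⟨x, hx⟩).2

theorem dquo_le_one (F : Sextic) {a b x : L} (ha : v a ≤ 1) (hb : v b ≤ 1) (hx : v x ≤ 1) :
    v (F.dquo a b x) ≤ 1 := by
  have h := F.map_dquo v.integer.subtype ⟨a, ha⟩ ⟨b, hb⟩ ⟨x, hx⟩
  rw [show F.dquo a b x = _ from h.symm]
  exact (F.dquo (⟨a, ha⟩ : v.integer) ⟨b, hb⟩ ⟨x, hx⟩).2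

theorem r0_le_one (F : Sextic) {a b : L} (ha : v a ≤ 1) (hb : v b ≤ 1) :
    v (F.r0 a b) ≤ 1 := by
  have h := F.map_r0 v.integer.subtype ⟨a, ha⟩ ⟨b, hb⟩
  rw [show F.r0 a b = _ from h.symm]
  exact (F.r0 (⟨a, ha⟩ : v.integer) ⟨b, hb⟩).2

section Core

variable (F : Sextic) {θ a b s t : L} (hθ : v θ ≤ 1) (hroot : F.ev θ = 0) (ha : v a ≤ 1)
  (hb : v b ≤ 1) (hr1 : F.r1 a b = 2 * s * t - s ^ 2 * a) (hr0 : F.r0 a b = t ^ 2 - s ^ 2 * b)

include hθ hroot ha hb hr1 hr0 in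
/-- Either the valuation is a square, or everything in sight is small. -/
theorem core : IsSq v (θ ^ 2 + a * θ + b) ∨
    (v s ≤ 1 ∧ v t ≤ 1 ∧ v (θ ^ 2 + a * θ + b) < 1 ∧ v (F.quo a b θ - s ^ 2) < 1 ∧
      v (s * θ + t) < 1) := by
  set z := θ ^ 2 + a * θ + b
  set W := F.quo a b θ - s ^ 2
  have hQ := quo_le_one F ha hb hθ
  have key : z * W = -(s * θ + t) ^ 2 := by
    have h := F.ev_eq a b θ
    rw [hroot, hr1, hr0] at h
    linear_combination -h
  have keyv : v z * v W = v (s * θ + t) ^ 2 := by rw [← map_mul, key, Valuation.map_neg, map_pow]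
  by_cases hs : 1 < v s
  · refine Or.inl ⟨(s * θ + t) / s, ?_⟩
    have hs2 : v (F.quo a b θ) < v (s ^ 2) := by
      refine hQ.trans_lt ?_
      rw [map_pow]; exact one_lt_pow₀ hs two_ne_zero
    have hW : v W = v s ^ 2 := by rw [Valuation.map_sub_eq_of_lt_right v hs2, map_pow]
    rw [map_div₀, div_pow, eq_div_iff (pow_ne_zero _ (zero_lt_one.trans hs).ne'), ← keyv, hW]
  push Not at hs
  have hs2 : v (s ^ 2) ≤ 1 := by rw [map_pow]; exact pow_le_one₀ zero_le hs
  have ht : v t ≤ 1 := by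
    refine le_one_of_sq ?_
    rw [show t ^ 2 = F.r0 a b + s ^ 2 * b by rw [hr0]; ring]
    exact le_one_add (r0_le_one F ha hb) (le_one_mul hs2 hb)
  have hz : v z ≤ 1 := by
    refine le_one_add (le_one_add ?_ (le_one_mul ha hθ)) hb
    rw [map_pow]; exact pow_le_one₀ zero_le hθ
  rcases hz.eq_or_lt with hz1 | hz1
  · exact Or.inl (isSq_one hz1)
  have hW : v W ≤ 1 := v.map_sub_le hQ hs2
  rcases hW.eq_or_lt with hW1 | hW1
  · exact Or.inl ⟨s * θ + t, by rw [← keyv, hW1, mul_one]⟩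
  refine Or.inr ⟨hs, ht, hz1, hW1, small_of_sq ?_⟩
  rw [map_pow, ← keyv]
  exact mul_lt_one_of_nonneg_of_lt_one_right hz zero_le hW1

include hθ hroot ha hb hr1 hr0 in
/-- The case of a unit derivative. -/
theorem isSq_of_dv (hd : v (F.dv θ) = 1) : IsSq v (θ ^ 2 + a * θ + b) := by
  rcases core F hθ hroot ha hb hr1 hr0 with h | ⟨hs, ht, hz, hW, hV⟩
  · exact h
  exfalso
  have e : F.dv θ = (2 * θ + a) * (F.quo a b θ - s ^ 2) +
      F.dquo a b θ * (θ ^ 2 + a * θ + b) + 2 * s * (s * θ + t) := by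
    rw [F.dv_eq a b θ, hr1]; ring
  refine hd.not_lt ?_
  rw [e]
  exact v.map_add_lt (v.map_add_lt (small_mul (le_one_add (le_one_mul le_one_two hθ) ha) hW)
    (small_mul (dquo_le_one F ha hb hθ) hz)) (small_mul (le_one_mul le_one_two hs) hV)

end Core

/-- An integer prime to 3 is a unit where 3 is small. -/
theorem eq_one_of_not_dvd (h3 : v (3 : L) < 1) {n : ℤ} (hn : ¬ (3 : ℤ) ∣ n) : v (n : L) = 1 := by
  refine (le_one_intCast n).antisymm (le_of_not_gt fun h => ?_)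
  have hc : IsCoprime (3 : ℤ) n := (Prime.coprime_iff_not_dvd (by norm_num)).2 hn
  obtain ⟨c, d, hcd⟩ := hc
  have h1 : (1 : L) = (c : L) * 3 + (d : L) * n := by exact_mod_cast hcd.symm
  refine (map_one v).not_lt ?_
  rw [h1]
  exact v.map_add_lt (small_mul (le_one_intCast c) h3) (small_mul (le_one_intCast d) h)

/-- A small rational number is divisible by 3. -/
theorem le_three_of_small (h3 : v (3 : L) < 1) {x : ℚ} (hx : v (x : L) < 1) :
    v (x : L) ≤ v 3 := by
  have hval : (x : L) = (x.num : L) / (x.den : L) := by exact_mod_cast (Rat.num_div_den x).symm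
  have hden : ¬ (3 : ℤ) ∣ (x.den : ℤ) := fun hd => by
    have hnum : ¬ (3 : ℤ) ∣ x.num := fun hn => by
      have h1 := x.reduced
      have := Nat.dvd_gcd (Int.natAbs_dvd_natAbs.2 hn : (3 : ℤ).natAbs ∣ x.num.natAbs)
        (Int.natAbs_dvd_natAbs.2 hd : (3 : ℤ).natAbs ∣ (x.den : ℤ).natAbs)
      rw [Int.natAbs_natCast, h1] at this
      norm_num at this
    obtain ⟨m, hm⟩ := hd
    have hd1 : v ((x.den : ℤ) : L) < 1 := by
      rw [hm]; push_cast; rw [mul_comm]
      exact small_mul (le_one_intCast m) h3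
    rw [hval, map_div₀, eq_one_of_not_dvd h3 hnum, show (x.den : L) = ((x.den : ℤ) : L) by
      push_cast; rfl] at hx
    have hne : v ((x.den : ℤ) : L) ≠ 0 := (Valuation.ne_zero_iff v).2 (by
      exact_mod_cast x.den_ne_zero)
    rw [div_lt_one₀ (zero_lt_iff.2 hne)] at hx
    exact hx.not_gt hd1
  rw [hval, map_div₀, show (x.den : L) = ((x.den : ℤ) : L) by push_cast; rfl,
    eq_one_of_not_dvd h3 hden, div_one] at hx ⊢
  by_cases hn : (3 : ℤ) ∣ x.num
  · obtain ⟨m, hm⟩ := hn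
    rw [hm]; push_cast
    rw [map_mul]
    exact mul_le_of_le_one_right' (le_one_intCast m)
  · exact absurd (eq_one_of_not_dvd h3 hn) hx.ne

/-- The case of a root of 3-valuation one. -/
theorem isSq_of_three (F : Sextic) {θ : L} {a b s t : ℚ} (hθ : v θ ≤ 1) (hroot : F.ev θ = 0)
    (ha : v (a : L) ≤ 1) (hb : v (b : L) ≤ 1) (hr1 : F.r1 a b = 2 * s * t - s ^ 2 * a)
    (hr0 : F.r0 a b = t ^ 2 - s ^ 2 * b) (h3 : v (3 : L) < 1) {r : ℤ}
    (hr : v (θ - r) < 1) (hF : v (F.ev (r : L)) = v 3) :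
    IsSq v (θ ^ 2 + a * θ + b) := by
  let ι := Rat.castHom L
  have hr1' : F.r1 (a : L) b = 2 * s * t - (s : L) ^ 2 * a := by
    have h := congrArg ι hr1
    rw [F.map_r1] at h
    simpa [ι] using h
  have hr0' : F.r0 (a : L) b = (t : L) ^ 2 - (s : L) ^ 2 * b := by
    have h := congrArg ι hr0
    rw [F.map_r0] at h
    simpa [ι] using h
  rcases core F hθ hroot ha hb hr1' hr0' with h | ⟨hs, ht, hz, hW, hV⟩
  · exact h
  exfalso
  set w := θ - r
  have hrr : v (r : L) ≤ 1 := le_one_intCast r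
  have hV' : v ((s * r + t : ℚ) : L) < 1 := by
    rw [show ((s * r + t : ℚ) : L) = (s * θ + t) - s * w by simp [w]; ring]
    exact v.map_sub_lt hV (small_mul hs hr)
  have hk' : v ((r ^ 2 + a * r + b : ℚ) : L) < 1 := by
    rw [show ((r ^ 2 + a * r + b : ℚ) : L) = (θ ^ 2 + a * θ + b) - (θ + r + a) * w by
      simp [w]; ring]
    exact v.map_sub_lt hz (small_mul (le_one_add (le_one_add hθ hrr) ha) hr)
  have hW' : v ((F.quo a b r - s ^ 2 : ℚ) : L) < 1 := by
    have e : ((F.quo a b r - s ^ 2 : ℚ) : L) = (F.quo (a : L) b θ - (s : L) ^ 2) -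
        (θ ^ 3 + θ ^ 2 * r + θ * r ^ 2 + r ^ 3 + F.q3 (a : L) * (θ ^ 2 + θ * r + r ^ 2) +
          F.q2 (a : L) b * (θ + r) + F.q1 (a : L) b) * w := by
      have h : ((F.quo a b r : ℚ) : L) = F.quo (a : L) b r := by
        simpa [ι] using F.map_quo ι a b r
      rw [Rat.cast_sub, Rat.cast_pow, h]
      simp only [Sextic.quo, w]; ring
    rw [e]
    refine v.map_sub_lt hW (small_mul ?_ hr)
    have m := fun (x : L) (hx : v x ≤ 1) => (⟨x, hx⟩ : v.integer)
    let A : v.integer := ⟨a, ha⟩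
    let B : v.integer := ⟨b, hb⟩
    let T : v.integer := ⟨θ, hθ⟩
    let P : v.integer := T ^ 3 + T ^ 2 * r + T * r ^ 2 + r ^ 3 + F.q3 A * (T ^ 2 + T * r + r ^ 2) +
      F.q2 A B * (T + r) + F.q1 A B
    have hP : v.integer.subtype P = θ ^ 3 + θ ^ 2 * r + θ * r ^ 2 + r ^ 3 +
        F.q3 (a : L) * (θ ^ 2 + θ * r + r ^ 2) + F.q2 (a : L) b * (θ + r) + F.q1 (a : L) b := by
      simp [P, Sextic.q1, Sextic.q2, Sextic.q3, A, B, T]
    exact hP ▸ P.2
  have he : F.ev (r : L) = ((r ^ 2 + a * r + b : ℚ) : L) * ((F.quo a b r - s ^ 2 : ℚ) : L) +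
      ((s * r + t : ℚ) : L) * ((s * r + t : ℚ) : L) := by
    have h : F.ev (r : ℚ) = (r ^ 2 + a * r + b) * (F.quo a b r - s ^ 2) +
        (s * r + t) * (s * r + t) := by
      rw [F.ev_eq a b, hr1, hr0]; ring
    have h' := congrArg ι h
    rw [F.map_ev] at h'
    simpa [ι] using h'
  have hlt : v (3 : L) * v 3 < v 3 :=
    mul_lt_of_lt_one_right (zero_lt_iff.2 ((Valuation.ne_zero_iff v).2 (by norm_num))) h3
  refine hF.not_lt ?_
  rw [he]
  refine v.map_add_lt (lt_of_le_of_lt ?_ hlt) (lt_of_le_of_lt ?_ hlt) <;> rw [map_mul]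
  · exact mul_le_mul' (le_three_of_small h3 hk') (le_three_of_small h3 hW')
  · exact mul_le_mul' (le_three_of_small h3 hV') (le_three_of_small h3 hV')

end FA.Torsion.Eighteen.Parity

end
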