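import Fermat.Agent.Torsion.Eighteen.Defs

/-!
# Units of the sextic field modulo squares

The eight products of `-1`, `e₀`, `e₁` are distinct modulo squares, as seen by the three roots
`1, 5, 9` of the sextic modulo 11. The unit rank is two, so they represent every class.
-/

set_option autoImplicit false
set_option linter.style.haveILetI false

noncomputable section

open Polynomial NumberField

namespace FA.Torsion.Eighteen

namespace UnitsL

theorem isIntegral_θL : IsIntegral ℤ θL :=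
  ⟨f18 X, by unfold f18; monicity!, by simpa [f18, map_ofNat] using f18_θL⟩

theorem isIntegral_sL : IsIntegral ℤ sL :=
  ⟨X ^ 2 + C 2, by monicity!, by simp [sL_sq]⟩

/-- The root as an algebraic integer. -/
def θI : 𝓞 L := ⟨θL, isIntegral_θL⟩

/-- The square root of `-2` as an algebraic integer. -/
def sI : 𝓞 L := ⟨sL, isIntegral_sL⟩

theorem coe_θI : (θI : L) = θL := rfl

theorem coe_sI : (sI : L) = sL := rfl

theorem g_θL : θL ^ 3 + (2 + 2 * sL) * θL ^ 2 + (-1 + 2 * sL) * θL - 1 = 0 := by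
  have h := gA_add_sL_mul_gB
  simp only [gA, gB] at h
  linear_combination h

/-- The first fundamental unit. -/
def u0 : (𝓞 L)ˣ :=
  Units.mkOfMulEqOne (1 - sI * θI) (1 + 2 * sI + (4 + 3 * sI) * θI + 2 * θI ^ 2)
    (RingOfIntegers.ext (by
      simp only [map_mul, map_add, map_sub, map_pow, map_one, map_ofNat, coe_sI, coe_θI]
      have h := g_θL
      have hi := sL_sq
      grind))

/-- The second fundamental unit. -/
def u1 : (𝓞 L)ˣ :=
  Units.mkOfMulEqOne (1 + sI + θI) ((1 + sI) * θI + θI ^ 2)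
    (RingOfIntegers.ext (by
      simp only [map_mul, map_add, map_pow, map_one, coe_sI, coe_θI]
      have h := g_θL
      have hi := sL_sq
      grind))

/-! ### The rank -/

theorem not_isReal (w : InfinitePlace L) : ¬w.IsReal := fun hw => by
  have h := congrArg (InfinitePlace.embedding_of_isReal hw) sL_sq
  rw [map_pow, map_neg, map_ofNat] at h
  nlinarith [sq_nonneg (InfinitePlace.embedding_of_isReal hw sL)]

theorem rank_L : Units.rank L = 2 := by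
  classical
  have h0 : InfinitePlace.nrRealPlaces L = 0 :=
    Fintype.card_eq_zero_iff.2 ⟨fun w => not_isReal w.1 w.2⟩
  have h1 := InfinitePlace.card_add_two_mul_card_eq_rank L
  have h2 := InfinitePlace.card_eq_nrRealPlaces_add_nrComplexPlaces (K := L)
  rw [finrank_L, h0] at h1
  rw [h0] at h2
  show Fintype.card (InfinitePlace L) - 1 = 2
  omega

/-- Units modulo squares. -/
abbrev Q2 : Type := (𝓞 L)ˣ ⧸ (powMonoidHom 2 : (𝓞 L)ˣ →* (𝓞 L)ˣ).range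

theorem mk_sq (x : (𝓞 L)ˣ) : ((x ^ 2 : (𝓞 L)ˣ) : Q2) = 1 :=
  (QuotientGroup.eq_one_iff _).2 ⟨x, rfl⟩

theorem exists_pow_sq (x : (𝓞 L)ˣ) (n : ℤ) :
    ∃ a : Fin 2, ((x ^ n : (𝓞 L)ˣ) : Q2) = ((x ^ (a : ℕ) : (𝓞 L)ˣ) : Q2) := by
  obtain ⟨j, rfl | rfl⟩ := Int.even_or_odd' n
  · exact ⟨0, by rw [mul_comm, zpow_mul, zpow_two, ← sq, mk_sq, Fin.val_zero, pow_zero]; rfl⟩
  · exact ⟨1, by
      rw [zpow_add_one, mul_comm 2 j, zpow_mul, zpow_two, ← sq, QuotientGroup.mk_mul, mk_sq]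
      show (1 : Q2) * (x : Q2) = ((x ^ 1 : (𝓞 L)ˣ) : Q2)
      rw [pow_one]
      exact one_mul (x : Q2)⟩

/-- The generators of all units modulo squares. -/
theorem exists_generators :
    ∃ z e e' : (𝓞 L)ˣ, ∀ x : (𝓞 L)ˣ, ∃ a b c : Fin 2,
      (x : Q2) = ((z ^ (a : ℕ) * e ^ (b : ℕ) * e' ^ (c : ℕ) : (𝓞 L)ˣ) : Q2) := by
  obtain ⟨g, hg⟩ := IsCyclic.exists_generator (α := Units.torsion L)
  let q : Fin 2 ≃ Fin (Units.rank L) := finCongr rank_L.symm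
  refine ⟨(g : (𝓞 L)ˣ), Units.fundSystem L (q 0), Units.fundSystem L (q 1), fun x => ?_⟩
  obtain ⟨⟨t, f⟩, hx, -⟩ := Units.exist_unique_eq_mul_prod L x
  obtain ⟨n, rfl⟩ := Subgroup.mem_zpowers_iff.1 (hg t)
  simp only [Subgroup.coe_zpow, ← Equiv.prod_comp q, Fin.prod_univ_two] at hx
  obtain ⟨a, ha⟩ := exists_pow_sq (g : (𝓞 L)ˣ) n
  obtain ⟨b, hb⟩ := exists_pow_sq (Units.fundSystem L (q 0)) (f (q 0))
  obtain ⟨c, hc⟩ := exists_pow_sq (Units.fundSystem L (q 1)) (f (q 1))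
  refine ⟨a, b, c, ?_⟩
  rw [hx, QuotientGroup.mk_mul, QuotientGroup.mk_mul, ha, hb, hc, QuotientGroup.mk_mul,
    QuotientGroup.mk_mul, mul_assoc]

/-! ### Reduction at the degree-one primes over 11 -/

/-- A simple root of the sextic modulo 11 gives a reduction of the integers of `L`. -/
theorem exists_red (r : ℤ) (h : (11 : ℤ) ∣ f18 r)
    (h' : ¬(11 : ℤ) ∣ (f18 (X : ℤ[X])).derivative.eval r) :
    ∃ ψ : 𝓞 L →+* ZMod 11, ψ θI = (r : ZMod 11) := by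
  haveI : Fact (Nat.Prime 11) := ⟨by norm_num⟩
  have ha : (f18 (X : ℤ[X])).aeval (r : ℤ_[11]) = ((f18 r : ℤ) : ℤ_[11]) := by
    simp [f18, map_ofNat]
  have hd : ‖(f18 (X : ℤ[X])).derivative.aeval (r : ℤ_[11])‖ = 1 := by
    have e : (f18 (X : ℤ[X])).derivative.aeval (r : ℤ_[11]) =
        (((f18 (X : ℤ[X])).derivative.eval r : ℤ) : ℤ_[11]) := by
      rw [show ((r : ℤ_[11])) = algebraMap ℤ ℤ_[11] r by simp,
        Polynomial.aeval_algebraMap_apply, Polynomial.aeval_def, Polynomial.eval]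
      simp
    rw [e]
    exact le_antisymm (PadicInt.norm_le_one _)
      (not_lt.1 fun hlt => h' (by exact_mod_cast (PadicInt.norm_int_lt_one_iff_dvd _).1 hlt))
  obtain ⟨z, hz, hclose, -⟩ := hensels_lemma (F := f18 (X : ℤ[X])) (a := (r : ℤ_[11])) (by
    rw [ha, hd, one_pow]
    exact (PadicInt.norm_int_lt_one_iff_dvd _).2 (by exact_mod_cast h))
  have hzf : f18 z = 0 := by simpa [f18, map_ofNat] using hz
  have hzQ : fPoly.eval₂ (algebraMap ℚ ℚ_[11]) (z : ℚ_[11]) = 0 := by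
    rw [← aeval_def, aeval_fPoly]
    have e := map_f18 PadicInt.Coe.ringHom z
    rw [hzf, map_zero] at e
    exact e.symm
  let σ : L →+* ℚ_[11] := AdjoinRoot.lift (algebraMap ℚ ℚ_[11]) (z : ℚ_[11]) hzQ
  let τ : 𝓞 L →+* ℚ_[11] := σ.comp (algebraMap (𝓞 L) L)
  have hint : ∀ x : 𝓞 L, τ x ∈ (PadicInt.Coe.ringHom (p := 11)).range := fun x => by
    have h1 : IsIntegral ℤ_[11] (σ (x : L)) :=
      (x.isIntegral_coe.map σ.toIntAlgHom).tower_top
    obtain ⟨y, hy⟩ := IsIntegrallyClosed.isIntegral_iff.1 h1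
    exact ⟨y, hy⟩
  choose y hy using hint
  have hinj : Function.Injective (PadicInt.Coe.ringHom (p := 11)) := Subtype.coe_injective
  let ρ : 𝓞 L →+* ℤ_[11] :=
    { toFun := y
      map_one' := hinj (by simp only [hy, map_one])
      map_mul' := fun a b => hinj (by simp only [map_mul, hy])
      map_zero' := hinj (by simp only [hy, map_zero])
      map_add' := fun a b => hinj (by simp only [map_add, hy]) }
  refine ⟨PadicInt.toZMod.comp ρ, ?_⟩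
  have hy' : ρ θI = z := hinj (by
    show PadicInt.Coe.ringHom (y θI) = _
    rw [hy]
    show σ θL = _
    exact AdjoinRoot.lift_root hzQ)
  show PadicInt.toZMod (ρ θI) = _
  rw [hy', ← map_intCast (PadicInt.toZMod (p := 11)) r, ← sub_eq_zero, ← map_sub,
    ← RingHom.mem_ker, PadicInt.ker_toZMod, PadicInt.maximalIdeal_eq_span_p,
    Ideal.mem_span_singleton, ← PadicInt.norm_lt_one_iff_dvd]
  rw [hd] at hclose
  exact hclose

theorem two_mul_sI : 2 * sI =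
    -(3 + 8 * θI + 13 * θI ^ 2 + 17 * θI ^ 3 + 7 * θI ^ 4 + 2 * θI ^ 5) :=
  RingOfIntegers.ext (by
    simp only [map_mul, map_add, map_neg, map_pow, map_ofNat, coe_sI, coe_θI, sL]
    ring)

/-- The values of `e₀`, `e₁` at a root modulo 11. -/
theorem red_values (ψ : 𝓞 L →+* ZMod 11) (r : ZMod 11) (h : ψ θI = r) :
    let s := 6 * -(3 + 8 * r + 13 * r ^ 2 + 17 * r ^ 3 + 7 * r ^ 4 + 2 * r ^ 5)
    ψ (u0 : 𝓞 L) = 1 - s * r ∧ ψ (u1 : 𝓞 L) = 1 + s + r := by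
  intro s
  have hi : ψ sI = s := by
    have e := congrArg ψ two_mul_sI
    simp only [map_mul, map_add, map_neg, map_pow, map_ofNat, h] at e
    have h6 : (6 : ZMod 11) * 2 = 1 := by decide
    calc ψ sI = 6 * (2 * ψ sI) := by rw [← mul_assoc, h6, one_mul]
      _ = s := by rw [e]
  refine ⟨?_, ?_⟩
  · simp only [u0, Units.val_mkOfMulEqOne, map_mul, map_sub, map_one, h, hi]
  · simp only [u1, Units.val_mkOfMulEqOne, map_add, map_one, h, hi]

theorem not_sq_zmod :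
    let v (r : ZMod 11) : ZMod 11 × ZMod 11 :=
      let s := 6 * -(3 + 8 * r + 13 * r ^ 2 + 17 * r ^ 3 + 7 * r ^ 4 + 2 * r ^ 5)
      (1 - s * r, 1 + s + r)
    (∀ a b c : Fin 2, ∀ x : ZMod 11,
      (-1) ^ (a : ℕ) * (v 5).1 ^ (b : ℕ) * (v 5).2 ^ (c : ℕ) = x ^ 2 → a = 0) ∧
    (∀ b c : Fin 2, ∀ x : ZMod 11,
      (-1) ^ 0 * (v 1).1 ^ (b : ℕ) * (v 1).2 ^ (c : ℕ) = x ^ 2 → c = 0) ∧
    (∀ b : Fin 2, ∀ x : ZMod 11,
      (-1) ^ 0 * (v 9).1 ^ (b : ℕ) * (v 9).2 ^ 0 = x ^ 2 → b = 0) := by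
  decide +kernel

/-- The classes of `-1`, `e₀`, `e₁` are independent modulo squares. -/
theorem indep (a b c : Fin 2) (η : (𝓞 L)ˣ)
    (h : (-1) ^ (a : ℕ) * u0 ^ (b : ℕ) * u1 ^ (c : ℕ) = η ^ 2) : a = 0 ∧ b = 0 ∧ c = 0 := by
  have key : ∀ ψ : 𝓞 L →+* ZMod 11, (-1) ^ (a : ℕ) * ψ (u0 : 𝓞 L) ^ (b : ℕ) *
      ψ (u1 : 𝓞 L) ^ (c : ℕ) = ψ (η : 𝓞 L) ^ 2 := fun ψ => by
    have e := congrArg (fun x : (𝓞 L)ˣ => ψ (x : 𝓞 L)) h
    simpa only [Units.val_mul, Units.val_pow_eq_pow_val, Units.val_neg, Units.val_one, map_mul,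
      map_pow, map_neg, map_one] using e
  obtain ⟨hA, hC, hB⟩ := not_sq_zmod
  have d : ∀ r : ℤ, r = 5 ∨ r = 1 ∨ r = 9 →
      ∃ ψ : 𝓞 L →+* ZMod 11, ψ θI = (r : ZMod 11) := fun r hr => by
    rcases hr with rfl | rfl | rfl <;>
      exact exists_red _ (by norm_num [f18]) (by simp [f18, derivative_pow])
  obtain ⟨ψ₁, h₁⟩ := d 5 (by norm_num)
  obtain ⟨ψ₂, h₂⟩ := d 1 (by norm_num)
  obtain ⟨ψ₃, h₃⟩ := d 9 (by norm_num)
  obtain ⟨e2, e3⟩ := red_values ψ₁ _ h₁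
  have ea := key ψ₁
  rw [e2, e3] at ea
  obtain rfl := hA a b c _ ea
  obtain ⟨e2, e3⟩ := red_values ψ₂ _ h₂
  have ec := key ψ₂
  rw [e2, e3] at ec
  obtain rfl := hC b c _ ec
  obtain ⟨e2, e3⟩ := red_values ψ₃ _ h₃
  have eb := key ψ₃
  rw [e2, e3] at eb
  exact ⟨rfl, hB b _ eb, rfl⟩

theorem fin_two_sub (a a' : Fin 2) : ∃ d : Fin 2, (a = a' ↔ d = 0) ∧
    ∀ x : (𝓞 L)ˣ, ((x ^ (a : ℕ) : (𝓞 L)ˣ) : Q2) * ((x ^ (a' : ℕ) : (𝓞 L)ˣ) : Q2) =
      ((x ^ (d : ℕ) : (𝓞 L)ˣ) : Q2) := by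
  refine ⟨a + a', by revert a a'; decide, fun x => ?_⟩
  rw [← QuotientGroup.mk_mul, ← pow_add]
  fin_cases a <;> fin_cases a' <;> first | rfl | exact (mk_sq x).trans (congrArg _ (pow_zero x).symm)

end UnitsL

open UnitsL in
/-- Every unit is a product of `-1`, `e₀`, `e₁` and a square. -/
theorem unit_eq (u : (𝓞 L)ˣ) : ∃ (a b c : ℕ) (η : L),
    ((u : 𝓞 L) : L) = (-1) ^ a * e0L ^ b * e1L ^ c * η ^ 2 := by
  classical
  let M : Fin 2 × Fin 2 × Fin 2 → Q2 := fun p =>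
    (((-1 : (𝓞 L)ˣ) ^ (p.1 : ℕ) * u0 ^ (p.2.1 : ℕ) * u1 ^ (p.2.2 : ℕ) : (𝓞 L)ˣ) : Q2)
  obtain ⟨z, e, e', hgen⟩ := exists_generators
  let G : Fin 2 × Fin 2 × Fin 2 → Q2 := fun p =>
    ((z ^ (p.1 : ℕ) * e ^ (p.2.1 : ℕ) * e' ^ (p.2.2 : ℕ) : (𝓞 L)ˣ) : Q2)
  have hG : Function.Surjective G := fun q => by
    obtain ⟨x, rfl⟩ := QuotientGroup.mk_surjective q
    obtain ⟨a, b, c, hx⟩ := hgen x
    exact ⟨(a, b, c), hx.symm⟩
  haveI : Finite Q2 := Finite.of_surjective G hG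
  have hsq : ∀ q : Q2, q * q = 1 := fun q => by
    obtain ⟨x, rfl⟩ := QuotientGroup.mk_surjective q
    rw [← QuotientGroup.mk_mul, ← sq, mk_sq]
  have reorder : ∀ A B C A' B' C' : Q2,
      A * B * C * (A' * B' * C') = A * A' * (B * B') * (C * C') := fun A B C A' B' C' => by
    rw [mul_mul_mul_comm (A * B), mul_mul_mul_comm A]
  have hM : Function.Injective M := by
    rintro ⟨a, b, c⟩ ⟨a', b', c'⟩ hp
    obtain ⟨da, ha, ha'⟩ := fin_two_sub a a'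
    obtain ⟨db, hb, hb'⟩ := fin_two_sub b b'
    obtain ⟨dc, hc, hc'⟩ := fin_two_sub c c'
    have h1 : M (a, b, c) * M (a', b', c') = 1 := by rw [hp, hsq]
    simp only [M, QuotientGroup.mk_mul] at h1
    rw [reorder, ha', hb', hc',
      ← QuotientGroup.mk_mul, ← QuotientGroup.mk_mul, QuotientGroup.eq_one_iff] at h1
    obtain ⟨η, hη⟩ := h1
    obtain ⟨r0, r1, r2⟩ := indep da db dc η hη.symm
    rw [ha.2 r0, hb.2 r1, hc.2 r2]
  have hcard : Nat.card Q2 ≤ Nat.card (Fin 2 × Fin 2 × Fin 2) := Nat.card_le_card_of_surjective G hG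
  have hbij : Function.Bijective M :=
    Function.Injective.bijective_of_nat_card_le hM hcard
  obtain ⟨⟨a, b, c⟩, hp⟩ := hbij.2 (u : Q2)
  obtain ⟨η, hη⟩ := QuotientGroup.eq.1 hp
  refine ⟨a, b, c, ((η : 𝓞 L) : L), ?_⟩
  have hu : u = (-1 : (𝓞 L)ˣ) ^ (a : ℕ) * u0 ^ (b : ℕ) * u1 ^ (c : ℕ) * η ^ 2 := by
    rw [show η ^ 2 = _ from hη, mul_inv_cancel_left]
  rw [hu]
  simp only [Units.val_mul, Units.val_pow_eq_pow_val, Units.val_neg, Units.val_one, map_mul, map_pow,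
    map_neg, u0, u1, Units.val_mkOfMulEqOne, map_add, map_sub, map_one, coe_sI, coe_θI, e0L, e1L]

end FA.Torsion.Eighteen

end
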