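import Fermat.Agent.Torsion.Eighteen.CubTwo
import Fermat.Agent.Torsion.Eighteen.Parity
import Fermat.Agent.Torsion.Eighteen.Units
import Fermat.Agent.Torsion.Eighteen.FieldPID

/-!
# The square root at `θ` of a quadratic factor

If `k₂ x² + k₁ x + k₀` (primitive, `k₂ ≡ 1 (mod 4)`, `k₁` even) divides `f18 - (v₁ x + v₀)²`, its
value at `θ` is the square of an element of `L` which is integral in `ℚ₂[√-2][θ]/(g)`: the unit of
the parity lemma is killed by reduction modulo `2` and its sign by reduction modulo `4`.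
-/

set_option autoImplicit false
set_option linter.style.haveILetI false

noncomputable section

open Polynomial NumberField

namespace FA.Torsion.Eighteen

/-- The value at `θ` of the quadratic factor is a square. -/
theorem exists_sqrt {k2 k1 k0 : ℤ} (h4 : 4 ∣ k2 - 1) (h1 : 2 ∣ k1)
    (hgcd : ∀ p : ℕ, p.Prime → ¬ ((p : ℤ) ∣ k2 ∧ (p : ℤ) ∣ k1 ∧ (p : ℤ) ∣ k0))
    {v1 v0 w4 w3 w2 w1 w0 : ℚ}
    (hid : ∀ x : ℚ, f18 x = (v1 * x + v0) ^ 2 +
      (k2 * x ^ 2 + k1 * x + k0) * (w4 * x ^ 4 + w3 * x ^ 3 + w2 * x ^ 2 + w1 * x + w0)) :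
    ∃ (aL : L) (a : Cub ℤ_[2]), aL ^ 2 = k2 * θL ^ 2 + k1 * θL + k0 ∧
      Cub.map incl a = toCub aL ∧ a ^ 2 = ⟨k0, 0, k1, 0, k2, 0⟩ := by
  have h2 : Odd k2 := by obtain ⟨r, hr⟩ := h4; exact ⟨2 * r, by omega⟩
  have hdvd : (C (k2 : ℚ) * X ^ 2 + C (k1 : ℚ) * X + C (k0 : ℚ)) ∣
      fPoly - (C v1 * X + C v0) ^ 2 := by
    refine ⟨C w4 * X ^ 4 + C w3 * X ^ 3 + C w2 * X ^ 2 + C w1 * X + C w0,
      Polynomial.funext fun x => ?_⟩
    have e : fPoly.eval x = f18 x := by simp [fPoly, f18]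
    simp only [eval_sub, eval_mul, eval_add, eval_pow, eval_C, eval_X, e]
    linear_combination hid x
  haveI := isPrincipalIdealRing_L
  obtain ⟨u, y, huy⟩ := exists_unit_mul_sq (z := (k2 : 𝓞 L) * UnitsL.θI ^ 2 +
    (k1 : 𝓞 L) * UnitsL.θI + (k0 : 𝓞 L)) h2 hgcd hdvd (by simp [UnitsL.coe_θI])
  obtain ⟨a, b, c, η, hu⟩ := unit_eq u
  set e : L := (-1 : L) ^ (a / 2) * e0L ^ (b / 2) * e1L ^ (c / 2) * η * (y : L)
  have hz : (k2 : L) * θL ^ 2 + k1 * θL + k0 =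
      (-1 : L) ^ (a % 2) * e0L ^ (b % 2) * e1L ^ (c % 2) * e ^ 2 := by
    calc (k2 : L) * θL ^ 2 + k1 * θL + k0 = ((u : 𝓞 L) : L) * (y : L) ^ 2 := by
          have := congrArg (algebraMap (𝓞 L) L) huy
          simpa [UnitsL.coe_θI] using this
      _ = (-1) ^ (a % 2 + 2 * (a / 2)) * e0L ^ (b % 2 + 2 * (b / 2)) *
          e1L ^ (c % 2 + 2 * (c / 2)) * η ^ 2 * (y : L) ^ 2 := by
          rw [hu, Nat.mod_add_div, Nat.mod_add_div, Nat.mod_add_div]
      _ = _ := by ring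
  set q : Cub ℤ_[2] := ⟨k0, 0, k1, 0, k2, 0⟩
  have hq : Cub.map incl q = toCub ((k2 : L) * θL ^ 2 + k1 * θL + k0) := by
    have hc : ∀ k : ℤ, toCub (k : L) = Cub.C (k : ℚ_[2]) := fun k => by
      rw [map_intCast, map_intCast]
    rw [map_add, map_add, map_mul, map_mul, map_pow, toCub_θL, hc, hc, hc, Cub.quad_eq]
    ext <;> simp [q, Cub.map_apply]
  set m : Cub ℤ_[2] := (-1) ^ (a % 2) * Cub.e0 ^ (b % 2) * Cub.e1 ^ (c % 2)
  have hm : toCub ((-1 : L) ^ (a % 2) * e0L ^ (b % 2) * e1L ^ (c % 2)) = Cub.map incl m := by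
    simp only [m, map_mul, map_pow, map_neg, map_one, toCub_e0L, toCub_e1L]
    congr
  obtain ⟨w, hw⟩ : ∃ w, m * w = 1 := by
    have hI : IsUnit (-1 : Cub ℤ_[2]) := isUnit_one.neg
    exact (((hI.pow _).mul ((IsUnit.of_mul_eq_one _ Cub.e0_inv).pow _)).mul
      ((IsUnit.of_mul_eq_one _ Cub.e1_inv).pow _)).exists_right_inv
  rw [hz, map_mul, map_pow, hm] at hq
  obtain ⟨ae, hae⟩ := Cub.exists_of_sq (x := toCub e) (y := w * q) (by
    rw [map_mul (Cub.map incl), hq, ← mul_assoc, mul_comm (Cub.map incl w), ← map_mul, hw, map_one, one_mul])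
  have hmq : m * ae ^ 2 = q := Cub.map_injective (φ := incl) Subtype.coe_injective (by
    rw [map_mul, map_pow, hae, hq])
  obtain ⟨bb, hb, hb4⟩ := Cub.map_red4_sq ae
  obtain ⟨s1, s2, s3⟩ := Cub.sq_im_zero bb
  have hk2 : (k2 : ZMod 2) = 1 := by
    obtain ⟨t, rfl⟩ := h2
    push_cast
    rw [show (2 : ZMod 2) = 0 by decide, zero_mul, zero_add]
  obtain ⟨hb', hc⟩ := Cub.unit_class_trivial
    ⟨b % 2, Nat.mod_lt _ two_pos⟩ ⟨c % 2, Nat.mod_lt _ two_pos⟩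
    ((Cub.ofBits bb : Cub (ZMod 2)) ^ 2).c00 ((Cub.ofBits bb : Cub (ZMod 2)) ^ 2).c10
    ((Cub.ofBits bb : Cub (ZMod 2)) ^ 2).c20 (k0 : ZMod 2) (k1 : ZMod 2) (by
      have hs : (⟨((Cub.ofBits bb : Cub (ZMod 2)) ^ 2).c00, 0,
          ((Cub.ofBits bb : Cub (ZMod 2)) ^ 2).c10, 0,
          ((Cub.ofBits bb : Cub (ZMod 2)) ^ 2).c20, 0⟩ : Cub (ZMod 2)) =
          Cub.ofBits bb ^ 2 := by
        ext <;> simp only [s1, s2, s3]
      have h := congrArg (Cub.map red2) hmq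
      simp only [m, map_mul, map_pow, map_neg, map_one, (by decide : (-1 : Cub (ZMod 2)) = 1),
        one_pow, one_mul, hb] at h
      rw [hs]
      refine Eq.trans ?_ (h.trans ?_)
      · congr <;> ext <;> simp [Cub.map_apply, Cub.e0, Cub.e1]
      · ext <;> simp [q, Cub.map_apply, hk2])
  have hb'' : b % 2 = 0 := congrArg Fin.val hb'
  have hc' : c % 2 = 0 := congrArg Fin.val hc
  have hm1 : m = (-1) ^ (a % 2) := by simp [m, hb'', hc']
  have ha' : a % 2 = 0 := by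
    by_contra hne
    have h := congrArg (Cub.map red4) hmq
    rw [hm1, show a % 2 = 1 by omega, pow_one, neg_one_mul, map_neg, map_pow, hb4,
      neg_eq_iff_eq_neg] at h
    have e20 : ((Cub.ofBits bb : Cub (ZMod 4)) ^ 2).c20 = -1 := by
      rw [h]
      obtain ⟨r, hr⟩ := h4
      have hr' : (k2 : ZMod 4) - 1 = 4 * (r : ZMod 4) := by exact_mod_cast congrArg Int.cast hr
      simp [q, Cub.map_apply, Cub.neg_def]
      rw [show (4 : ZMod 4) = 0 from rfl, zero_mul] at hr'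
      linear_combination hr'
    have e10 : 2 * ((Cub.ofBits bb : Cub (ZMod 4)) ^ 2).c10 = 0 := by
      rw [h]
      obtain ⟨r, hr⟩ := h1
      simp [q, Cub.map_apply, Cub.neg_def, hr]
      rw [map_ofNat, ← mul_assoc, show (2 : ZMod 4) * 2 = 0 by decide, zero_mul]
    have h20 := Cub.quad_sq_lead bb (by rw [h]; simp [q, Cub.map_apply, Cub.neg_def])
      (by rw [h]; simp [q, Cub.map_apply, Cub.neg_def])
      (by rw [h]; simp [q, Cub.map_apply, Cub.neg_def]) (by rw [e20]; decide) e10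
    exact absurd (h20.symm.trans e20) (by decide)
  refine ⟨e, ae, ?_, hae, ?_⟩
  · rw [hz, ha', hb'', hc']
    simp
  · rw [← hmq, hm1, ha', pow_zero, one_mul]

end FA.Torsion.Eighteen

end
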