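import Fermat.Agent.Torsion.Eighteen.CubTwo

/-!
# Elementary `2`-adic tools for the descent on `X₁(18)`

Exact powers of `2`, square roots of numbers `≡ 1 (mod 8)`, and the Taylor coefficients of the
sextic at a point, read modulo `(z² - D)²`.
-/

set_option autoImplicit false

noncomputable section

open Polynomial

namespace FA.Torsion.Eighteen

/-- `x` is `2 ^ n` times a unit. -/
def Exact (n : ℕ) (x : ℤ_[2]) : Prop := ∃ u : ℤ_[2], red2 u = 1 ∧ x = 2 ^ n * u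

theorem zmod2_cases : ∀ x : ZMod 2, x = 0 ∨ x = 1 := by decide

theorem red2_two : red2 2 = 0 := by rw [map_ofNat]; decide

theorem red2_eq_one {x : ℤ_[2]} : red2 x = 1 ↔ ¬ 2 ∣ x := by
  rw [← red2_eq_zero]
  rcases zmod2_cases (red2 x) with h | h <;> simp [h]

theorem exists_exact {x : ℤ_[2]} (hx : x ≠ 0) : ∃ n, Exact n x := by
  refine ⟨x.valuation, (PadicInt.unitCoeff hx : ℤ_[2]), ?_, ?_⟩
  · rcases zmod2_cases (red2 (PadicInt.unitCoeff hx : ℤ_[2])) with h | h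
    · exact absurd ((PadicInt.unitCoeff hx).isUnit.map red2) (by rw [h]; exact not_isUnit_zero)
    · exact h
  · conv_lhs => rw [PadicInt.unitCoeff_spec hx, mul_comm]
    norm_num

theorem Exact.dvd {n : ℕ} {x : ℤ_[2]} (h : Exact n x) : 2 ^ n ∣ x := by
  obtain ⟨u, _, rfl⟩ := h
  exact dvd_mul_right _ _

theorem Exact.not_dvd {n : ℕ} {x : ℤ_[2]} (h : Exact n x) : ¬ 2 ^ (n + 1) ∣ x := by
  obtain ⟨u, hu, rfl⟩ := h
  rw [pow_succ, mul_dvd_mul_iff_left (pow_ne_zero _ two_ne_zero)]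
  exact red2_eq_one.1 hu

theorem Exact.ne_zero {n : ℕ} {x : ℤ_[2]} (h : Exact n x) : x ≠ 0 := fun e =>
  h.not_dvd (e ▸ dvd_zero _)

theorem exact_iff {n : ℕ} {x : ℤ_[2]} : Exact n x ↔ 2 ^ n ∣ x ∧ ¬ 2 ^ (n + 1) ∣ x := by
  refine ⟨fun h => ⟨h.dvd, h.not_dvd⟩, fun ⟨⟨u, hu⟩, h⟩ => ⟨u, red2_eq_one.2 ?_, hu⟩⟩
  intro hd
  exact h (hu ▸ (pow_succ (2 : ℤ_[2]) n).symm ▸ mul_dvd_mul_left _ hd)

theorem Exact.le_of_dvd {n k : ℕ} {x : ℤ_[2]} (h : Exact n x) (hd : 2 ^ k ∣ x) : k ≤ n := by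
  by_contra hlt
  exact h.not_dvd ((pow_dvd_pow _ (by omega)).trans hd)

theorem Exact.unique {n k : ℕ} {x : ℤ_[2]} (h : Exact n x) (h' : Exact k x) : n = k :=
  le_antisymm (h'.le_of_dvd h.dvd) (h.le_of_dvd h'.dvd)

theorem Exact.mul {n k : ℕ} {x y : ℤ_[2]} (h : Exact n x) (h' : Exact k y) :
    Exact (n + k) (x * y) := by
  obtain ⟨u, hu, rfl⟩ := h
  obtain ⟨v, hv, rfl⟩ := h'
  exact ⟨u * v, by rw [map_mul, hu, hv, one_mul], by ring⟩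

theorem Exact.pow {n : ℕ} {x : ℤ_[2]} (h : Exact n x) (k : ℕ) : Exact (n * k) (x ^ k) := by
  obtain ⟨u, hu, rfl⟩ := h
  exact ⟨u ^ k, by rw [map_pow, hu, one_pow], by rw [mul_pow, ← pow_mul]⟩

theorem Exact.add_dvd {n : ℕ} {x y : ℤ_[2]} (h : Exact n x) (hy : 2 ^ (n + 1) ∣ y) :
    Exact n (x + y) :=
  exact_iff.2 ⟨dvd_add h.dvd ((pow_dvd_pow _ n.le_succ).trans hy),
    fun hd => h.not_dvd ((dvd_add_left hy).1 hd)⟩

theorem Exact.neg {n : ℕ} {x : ℤ_[2]} (h : Exact n x) : Exact n (-x) :=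
  exact_iff.2 ⟨(dvd_neg).2 h.dvd, fun hd => h.not_dvd (dvd_neg.1 hd)⟩

theorem exact_zero_iff {x : ℤ_[2]} : Exact 0 x ↔ red2 x = 1 :=
  ⟨fun ⟨u, hu, e⟩ => by rw [e, pow_zero, one_mul, hu], fun h => ⟨x, h, by rw [pow_zero, one_mul]⟩⟩

/-- A `2`-adic integer congruent to `1` modulo `8` is a square. -/
theorem exists_sq_eq {x : ℤ_[2]} (h : 8 ∣ x - 1) : ∃ y, y ^ 2 = x := by
  obtain ⟨w, hw⟩ := h
  have hF : ‖(X ^ 2 + X - C (2 * w) : ℤ_[2][X]).eval 0‖ <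
      ‖(derivative (X ^ 2 + X - C (2 * w) : ℤ_[2][X])).eval 0‖ ^ 2 := by
    simp [norm_mul]
    calc ‖(2 : ℤ_[2])‖ * ‖w‖ ≤ ‖(2 : ℤ_[2])‖ * 1 := by gcongr; exact PadicInt.norm_le_one w
      _ < 1 := by
        rw [mul_one]
        exact (PadicInt.norm_lt_one_iff_dvd 2).2 (dvd_refl _)
  obtain ⟨z, hz, -⟩ := hensels_lemma (F := (X ^ 2 + X - C (2 * w) : ℤ_[2][X])) (a := 0) hF
  simp at hz
  exact ⟨1 + 2 * z, by linear_combination 4 * hz - hw⟩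

theorem coeffs_eq_zero {R : Type} [CommRing R] [IsDomain R] [Infinite R]
    (c0 c1 c2 c3 c4 c5 c6 : R)
    (h : ∀ x : R, c0 + c1 * x + c2 * x ^ 2 + c3 * x ^ 3 + c4 * x ^ 4 + c5 * x ^ 5 + c6 * x ^ 6 = 0) :
    c0 = 0 ∧ c1 = 0 ∧ c2 = 0 ∧ c3 = 0 ∧ c4 = 0 ∧ c5 = 0 ∧ c6 = 0 := by
  have hp : C c0 + C c1 * X + C c2 * X ^ 2 + C c3 * X ^ 3 + C c4 * X ^ 4 + C c5 * X ^ 5
      + C c6 * X ^ 6 = 0 := Polynomial.funext fun x => by simpa using h x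
  have hc := fun n => congrArg (fun p => p.coeff n) hp
  refine ⟨?_, ?_, ?_, ?_, ?_, ?_, ?_⟩
  · simpa [coeff_X, coeff_C] using hc 0
  · simpa [coeff_X, coeff_C] using hc 1
  · simpa [coeff_X, coeff_C] using hc 2
  · simpa [coeff_X, coeff_C] using hc 3
  · simpa [coeff_X, coeff_C] using hc 4
  · simpa [coeff_X, coeff_C] using hc 5
  · simpa [coeff_X, coeff_C] using hc 6

variable {R : Type} [CommRing R]

/-- Even part of `f18 (m + z)` at `z² = D`. -/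
def fE (m D : R) : R :=
  f18 m + (15 * m ^ 4 + 40 * m ^ 3 + 60 * m ^ 2 + 30 * m + 5) * D
    + (15 * m ^ 2 + 20 * m + 10) * D ^ 2 + D ^ 3

/-- Half the odd part of `f18 (m + z)` at `z² = D`. -/
def gO (m D : R) : R :=
  3 * m ^ 5 + 10 * m ^ 4 + 20 * m ^ 3 + 15 * m ^ 2 + 5 * m + 1
    + (10 * m ^ 3 + 20 * m ^ 2 + 20 * m + 5) * D + (3 * m + 2) * D ^ 2

/-- The derivative of `fE` in `D`. -/
def fE' (m D : R) : R :=
  15 * m ^ 4 + 40 * m ^ 3 + 60 * m ^ 2 + 30 * m + 5 + 2 * (15 * m ^ 2 + 20 * m + 10) * D + 3 * D ^ 2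

/-- The derivative of `gO` in `D`. -/
def gO' (m D : R) : R :=
  10 * m ^ 3 + 20 * m ^ 2 + 20 * m + 5 + 2 * (3 * m + 2) * D

variable [IsDomain R] [Infinite R]

/-- From `f18 = V² + U W` with `U = u ((x - m)² - D)`: the value of `V` at the roots of `U`. -/
theorem value_eqs {u m D v1 v0 w0 w1 w2 w3 w4 : R} (h2 : (2 : R) ≠ 0)
    (h : ∀ x : R, f18 x = (v1 * x + v0) ^ 2
      + u * ((x - m) ^ 2 - D) * (w4 * x ^ 4 + w3 * x ^ 3 + w2 * x ^ 2 + w1 * x + w0)) :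
    (v1 * m + v0) ^ 2 + D * v1 ^ 2 = fE m D ∧ (v1 * m + v0) * v1 = gO m D := by
  obtain ⟨c0, c1, c2, c3, c4, c5, c6⟩ := coeffs_eq_zero
    (f18 m - (v1 * m + v0) ^ 2
      + u * D * (w4 * m ^ 4 + w3 * m ^ 3 + w2 * m ^ 2 + w1 * m + w0))
    (6 * m ^ 5 + 20 * m ^ 4 + 40 * m ^ 3 + 30 * m ^ 2 + 10 * m + 2 - 2 * (v1 * m + v0) * v1
      + u * D * (4 * w4 * m ^ 3 + 3 * w3 * m ^ 2 + 2 * w2 * m + w1))
    (15 * m ^ 4 + 40 * m ^ 3 + 60 * m ^ 2 + 30 * m + 5 - v1 ^ 2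
      + u * D * (6 * w4 * m ^ 2 + 3 * w3 * m + w2)
      - u * (w4 * m ^ 4 + w3 * m ^ 3 + w2 * m ^ 2 + w1 * m + w0))
    (20 * m ^ 3 + 40 * m ^ 2 + 40 * m + 10 + u * D * (4 * w4 * m + w3)
      - u * (4 * w4 * m ^ 3 + 3 * w3 * m ^ 2 + 2 * w2 * m + w1))
    (15 * m ^ 2 + 20 * m + 10 + u * D * w4 - u * (6 * w4 * m ^ 2 + 3 * w3 * m + w2))
    (6 * m + 4 - u * (4 * w4 * m + w3)) (1 - u * w4)
    (fun z => by have := h (m + z); simp only [f18] at this ⊢; linear_combination this)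
  refine ⟨?_, mul_left_cancel₀ h2 ?_⟩
  · simp only [fE]; linear_combination -c0 - D * c2 - D ^ 2 * c4 - D ^ 3 * c6
  · simp only [gO]; linear_combination -c1 - D * c3 - D ^ 2 * c5

/-- From `l² - U k² = ε f18` with `k = q ((x - m)² - D)`: the coefficients of `l (m + z)` against
the Taylor coefficients of the sextic, and the coefficients of `U (m + z)`. -/
theorem taylor_eqs {ε m D q a b c e v0 v1 v2 : R} (h2 : (2 : R) ≠ 0)
    (h : ∀ z : R, (a + b * z + c * z ^ 2 + e * z ^ 3) ^ 2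
      - (v2 * z ^ 2 + v1 * z + v0) * (q * (z ^ 2 - D)) ^ 2 = ε * f18 (m + z)) :
    (a + c * D) ^ 2 + D * (b + e * D) ^ 2 = ε * fE m D ∧
    (a + c * D) * (b + e * D) = ε * gO m D ∧
    2 * (a + c * D) * c + (b + e * D) ^ 2 + 2 * D * (b + e * D) * e = ε * fE' m D ∧
    c * (b + e * D) + (a + c * D) * e = ε * gO' m D ∧
    v2 * q ^ 2 = e ^ 2 - ε ∧ v1 * q ^ 2 = 2 * c * e - 2 * ε * (3 * m + 2) ∧
    v0 * q ^ 2 - 2 * D * (v2 * q ^ 2) = c ^ 2 + 2 * b * e - ε * (15 * m ^ 2 + 20 * m + 10) := by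
  obtain ⟨c0, c1, c2, c3, c4, c5, c6⟩ := coeffs_eq_zero
    (a ^ 2 - v0 * q ^ 2 * D ^ 2 - ε * f18 m)
    (2 * a * b - v1 * q ^ 2 * D ^ 2 - ε * (6 * m ^ 5 + 20 * m ^ 4 + 40 * m ^ 3 + 30 * m ^ 2 + 10 * m + 2))
    (b ^ 2 + 2 * a * c + 2 * v0 * q ^ 2 * D - v2 * q ^ 2 * D ^ 2
      - ε * (15 * m ^ 4 + 40 * m ^ 3 + 60 * m ^ 2 + 30 * m + 5))
    (2 * a * e + 2 * b * c + 2 * v1 * q ^ 2 * D - ε * (20 * m ^ 3 + 40 * m ^ 2 + 40 * m + 10))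
    (c ^ 2 + 2 * b * e - v0 * q ^ 2 + 2 * v2 * q ^ 2 * D - ε * (15 * m ^ 2 + 20 * m + 10))
    (2 * c * e - v1 * q ^ 2 - ε * (6 * m + 4)) (e ^ 2 - v2 * q ^ 2 - ε)
    (fun z => by have := h z; simp only [f18] at this ⊢; linear_combination this)
  refine ⟨?_, mul_left_cancel₀ h2 ?_, ?_, mul_left_cancel₀ h2 ?_, ?_, ?_, ?_⟩
  · simp only [fE]; linear_combination c0 + D * c2 + D ^ 2 * c4 + D ^ 3 * c6
  · simp only [gO]; linear_combination c1 + D * c3 + D ^ 2 * c5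
  · simp only [fE']; linear_combination c2 + 2 * D * c4 + 3 * D ^ 2 * c6
  · simp only [gO']; linear_combination c3 + 2 * D * c5
  · linear_combination -c6
  · linear_combination -c5
  · linear_combination -c4

end FA.Torsion.Eighteen

end
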